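import Fermat.Agent.MR.Glue.BLRGal
import Fermat.Agent.MR.E.Base
import Fermat.Agent.S13.FieldOfDef
import Fermat.Agent.Lib.FrobDensity.GALInterface

/-!
# MR / Glue / BLREll: Boston--Lenstra--Ribet for `E[p]`, `E` the Frey curve

* `frobMod_Ep`  : `E[p]` is a `FrobMod`.
* `embed_Ep`    : every nonzero `FrobMod` with the same Frobenius data receives an injective equivariant map from `E[p]`.
* `exists_prime_ne` : there is a prime `ℓ` outside any given finite set with `a_ℓ ≢ ℓ + 1 (mod p)`.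
-/

set_option autoImplicit false

namespace Fermat.Agent.MR.Glue

open Fermat.Agent.GAL Fermat.Agent.MR.E
open WeierstrassCurve WeierstrassCurve.Affine WeierstrassCurve.Affine.Point

theorem FrobMod.mono {p : ℕ} {a : ℕ → ℤ} {B B' : Finset ℕ} {X : Type*} [AddCommGroup X]
    [DistribMulAction GQ X] (h : FrobMod p a B X) (hB : B ⊆ B') : FrobMod p a B' X :=
  ⟨h.tors, h.cont, fun ℓ hℓ hℓB => h.frob ℓ hℓ fun hm => hℓB (hB hm)⟩

/-- `E[p]` is a `FrobMod`. -/
theorem frobMod_Ep (P : FreyPackage) (W : WeierstrassCurve ℤ) (hW : W.IsIntegralModelOf P.freyCurve) :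
    ∃ S : Finset ℕ, FrobMod P.p (fun ℓ => W.apOfModel ℓ) S (Ep P) := by
  obtain ⟨S, hS⟩ := E_GLOB P W hW
  obtain ⟨M, hM1, hM2⟩ := Fermat.Agent.S13.frey_exists_field_of_def P
  refine ⟨S, ?_, ⟨M, hM1, fun σ hσ y => ?_⟩, hS⟩
  · intro x
    exact Subtype.ext (Ep_nsmul P x)
  · exact hM2 σ ((IntermediateField.mem_fixingSubgroup_iff _ σ).mpr hσ) y

theorem irr_Ep (P : FreyPackage)
    (hirr : GaloisRepIsIrreducible (K := AlgebraicClosure ℚ) ℚ P.freyCurve P.p)
    (U : AddSubgroup (Ep P)) (hU : ∀ σ : GQ, ∀ x ∈ U, σ • x ∈ U) : U = ⊥ ∨ U = ⊤ := by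
  rcases hirr.2 (AddSubgroup.toZModSubmodule P.p U) hU with h | h
  · left
    rw [eq_bot_iff]
    intro x hx
    have : x ∈ AddSubgroup.toZModSubmodule P.p U := hx
    rw [h] at this
    exact this
  · right
    rw [eq_top_iff]
    intro x _
    have : x ∈ AddSubgroup.toZModSubmodule P.p U := by rw [h]; trivial
    exact this

theorem dim_Ep (P : FreyPackage) (v : Ep P) : ∃ u : Ep P, ∀ n : ℤ, u ≠ n • v := by
  by_contra hcon
  push Not at hcon
  have hfin : Finite (Ep P) :=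
    Nat.finite_of_card_ne_zero (by rw [card_Ep]; exact pow_ne_zero 2 P.pp.ne_zero)
  have hpv : P.p • v = 0 := Subtype.ext (Ep_nsmul P v)
  have hsurj : Function.Surjective (fun i : Fin P.p => (i : ℕ) • v) := by
    intro u
    obtain ⟨n, hn⟩ := hcon u
    have hp0 : (0 : ℤ) < P.p := by exact_mod_cast P.pp.pos
    refine ⟨⟨(n % P.p).toNat, ?_⟩, ?_⟩
    · have h1 := Int.emod_lt_of_pos n hp0
      have h2 := Int.emod_nonneg n hp0.ne'
      omega
    · have h2 := Int.emod_nonneg n hp0.ne'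
      change (n % P.p).toNat • v = u
      rw [hn, ← natCast_zsmul, Int.toNat_of_nonneg h2]
      conv_rhs => rw [← Int.emod_add_mul_ediv n P.p, add_zsmul, mul_zsmul', natCast_zsmul, hpv,
        zsmul_zero, add_zero]
  have h1 := Nat.card_le_card_of_surjective _ hsurj
  rw [card_Ep, Nat.card_eq_fintype_card, Fintype.card_fin] at h1
  have := P.pp.one_lt
  nlinarith

/-- **BLR for the Frey curve.** -/
theorem embed_Ep (P : FreyPackage) (hp2 : P.p ≠ 2)
    (hirr : GaloisRepIsIrreducible (K := AlgebraicClosure ℚ) ℚ P.freyCurve P.p)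
    (W : WeierstrassCurve ℤ) (hW : W.IsIntegralModelOf P.freyCurve) {B : Finset ℕ} {X : Type*}
    [AddCommGroup X] [DistribMulAction GQ X] (hX : FrobMod P.p (fun ℓ => W.apOfModel ℓ) B X)
    [Nontrivial X] :
    ∃ φ : Ep P →+ X, Function.Injective φ ∧ ∀ (σ : GQ) (x : Ep P), φ (σ • x) = σ • φ x := by
  have : Fact P.p.Prime := ⟨P.pp⟩
  obtain ⟨S, hS⟩ := frobMod_Ep P W hW
  exact exists_embedding_GQ Fermat.Agent.Lib.FrobDensity.gal_frobeniusDensity hp2
    (hS.mono (Finset.subset_union_left (s₂ := B))) (hX.mono (Finset.subset_union_right (s₁ := S)))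
    (irr_Ep P hirr) (dim_Ep P)

/-- There is a prime outside any finite set with `a_ℓ ≢ ℓ + 1`. -/
theorem exists_prime_ne (P : FreyPackage) (hp2 : P.p ≠ 2)
    (hirr : GaloisRepIsIrreducible (K := AlgebraicClosure ℚ) ℚ P.freyCurve P.p)
    (W : WeierstrassCurve ℤ) (hW : W.IsIntegralModelOf P.freyCurve) (B : Finset ℕ) :
    ∃ ℓ : ℕ, ℓ.Prime ∧ ℓ ∉ B ∧ ¬ (P.p : ℤ) ∣ W.apOfModel ℓ - ℓ - 1 := by
  have : Fact P.p.Prime := ⟨P.pp⟩
  obtain ⟨S, hS⟩ := frobMod_Ep P W hW
  obtain ⟨ℓ, hℓ, hℓB, h⟩ := exists_prime_not_eisenstein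
    Fermat.Agent.Lib.FrobDensity.gal_frobeniusDensity hp2
    (hS.mono (Finset.subset_union_left (s₂ := B))) (irr_Ep P hirr) (dim_Ep P)
  exact ⟨ℓ, hℓ, fun hm => hℓB (Finset.mem_union_right _ hm), h⟩

end Fermat.Agent.MR.Glue
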