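import Fermat.Agent.MR.Glue.Front
import Fermat.Agent.MR.Glue.BLREll
import Fermat.Agent.DR.S34.Final

/-!
# MR / Glue / Frob : the two BLR contracts of `Front.lean`

* `embed_Ep_sub` : BLR for a Galois stable subgroup `Y` of a `G_ℚ`-module.
* `kv_finite`, `kv_cont`, `kv_frob` : `V_p(F(n))` is finite, has open stabilisers, Eichler-Shimura (any level `n`, by `KL.klAll`).
* `blrCopy : BLRCopy P`, `blrNonEis : BLRNonEis P`.
-/

set_option autoImplicit false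

namespace Fermat.Agent.MR.Glue

open AlgebraicCurve ModularCurve Fermat.Agent.S24 Fermat.Agent.GAL Fermat.Agent.DR Fermat.Agent.MR.E
open Fermat.Agent.GAL.Tors
open WeierstrassCurve WeierstrassCurve.Affine WeierstrassCurve.Affine.Point

/-- The action of `G_ℚ` on a stable subgroup. -/
@[reducible] noncomputable def stableAction {X : Type*} [AddCommGroup X] [DistribMulAction GQ X] (Y : AddSubgroup X)
    (hY : ∀ σ : GQ, ∀ y ∈ Y, σ • y ∈ Y) : DistribMulAction GQ Y where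
  smul σ y := ⟨σ • y.1, hY σ y.1 y.2⟩
  one_smul y := Subtype.ext (one_smul GQ y.1)
  mul_smul σ τ y := Subtype.ext (mul_smul σ τ y.1)
  smul_zero σ := Subtype.ext (smul_zero σ)
  smul_add σ y z := Subtype.ext (smul_add σ y.1 z.1)

/-- **BLR for a Galois stable subgroup.** -/
theorem embed_Ep_sub (P : FreyPackage)
    (hirr : GaloisRepIsIrreducible (K := AlgebraicClosure ℚ) ℚ P.freyCurve P.p)
    (W : WeierstrassCurve ℤ) (hW : W.IsIntegralModelOf P.freyCurve) {B : Finset ℕ} {X : Type*}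
    [AddCommGroup X] [DistribMulAction GQ X] (Y : AddSubgroup X)
    (hY : ∀ σ : GQ, ∀ y ∈ Y, σ • y ∈ Y) (hY0 : Y ≠ ⊥)
    (tors : ∀ y ∈ Y, P.p • y = 0)
    (cont : ∃ F : IntermediateField ℚ (AlgebraicClosure ℚ), FiniteDimensional ℚ F ∧
      ∀ σ : GQ, (∀ x ∈ F, σ x = x) → ∀ y ∈ Y, σ • y = y)
    (frob : ∀ ℓ : ℕ, ℓ.Prime → ℓ ∉ B → ∀ A : ValuationSubring (AlgebraicClosure ℚ),
      A.LiesOverPrime ℓ → ∀ σ : GQ, A.IsFrobeniusAt σ ℓ → ∀ y ∈ Y,
        σ • σ • y - W.apOfModel ℓ • σ • y + (ℓ : ℤ) • y = 0) :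
    ∃ φ : Ep P →+ X, Function.Injective φ ∧ (∀ (σ : GQ) (x : Ep P), φ (σ • x) = σ • φ x) ∧
      ∀ x : Ep P, φ x ∈ Y := by
  let _ := stableAction Y hY
  have hp2 : P.p ≠ 2 := by have := P.hp5; omega
  have hFM : FrobMod P.p (fun ℓ => W.apOfModel ℓ) B Y := by
    refine ⟨fun y => Subtype.ext (tors y.1 y.2), ?_, ?_⟩
    · obtain ⟨F, hF, h⟩ := cont
      exact ⟨F, hF, fun σ hσ y => Subtype.ext (h σ hσ y.1 y.2)⟩
    · intro ℓ hℓ hℓB A hA σ hσ y
      exact Subtype.ext (frob ℓ hℓ hℓB A hA σ hσ y.1 y.2)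
  have : Nontrivial Y := (AddSubgroup.nontrivial_iff_ne_bot Y).mpr hY0
  obtain ⟨φ, h1, h2⟩ := embed_Ep P hp2 hirr W hW hFM
  refine ⟨Y.subtype.comp φ, Subtype.val_injective.comp h1, fun σ x => ?_, fun x => (φ x).2⟩
  exact congrArg Subtype.val (h2 σ x)

theorem kv_finite (n p : ℕ) [NeZero n] [NeZero p] : Finite (KV Kbar (FN n) p) := by
  obtain ⟨Dt⟩ := nonempty_torsDatum' n
  exact Finite.of_equiv _ (Dt.e p).toEquiv

theorem kv_cont (n p : ℕ) [NeZero n] [NeZero p] :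
    ∃ F : IntermediateField ℚ (AlgebraicClosure ℚ), FiniteDimensional ℚ F ∧
      ∀ σ : GQ, (∀ x ∈ F, σ x = x) → ∀ y : KV Kbar (FN n) p, σ • y = y := by
  have := kv_finite n p
  choose E hE1 hE2 using fun y : KV Kbar (FN n) p => KV.exists_stab _ p y
  refine ⟨⨆ y, E y, ?_, fun σ hσ y => hE2 y σ fun x hx => hσ x ?_⟩
  · have := hE1
    exact IntermediateField.finiteDimensional_iSup_of_finite
  · exact (le_iSup E y) hx

theorem kv_frob (n p ℓ : ℕ) [NeZero n] [NeZero p] [NeZero ℓ] (hℓ : ℓ.Prime) (hℓn : ¬ ℓ ∣ n)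
    (hℓp : ¬ ℓ ∣ p) (A : ValuationSubring Kbar) (hA : A.LiesOverPrime ℓ) (σ : GQ)
    (hσ : A.IsFrobeniusAt σ ℓ) (x : KV Kbar (FN n) p) :
    σ • σ • x - heckeT Kbar n ℓ p (σ • x) + ℓ • x = 0 :=
  Hecke.eichlerShimura n p ℓ (Nat.pos_of_ne_zero (NeZero.ne p)) hℓ hℓn A hA
    (KL.klAll n (NeZero.ne n) A p (natCast_residueField_ne_zero A hℓ hA hℓn)
      (natCast_residueField_ne_zero A hℓ hA hℓp)) σ hσ x

/-- **Contract of BLR, part 1.** -/
theorem blrCopy (P : FreyPackage)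
    (hirr : GaloisRepIsIrreducible (K := AlgebraicClosure ℚ) ℚ P.freyCurve P.p) : BLRCopy P := by
  intro n _ W hW S U hU0 hUle hUst
  have : NeZero P.p := ⟨P.pp.ne_zero⟩
  obtain ⟨F, hF1, hF2⟩ := kv_cont n P.p
  refine embed_Ep_sub P hirr W hW (B := S ∪ (n * P.p).primeFactors) U hUst hU0
    (fun y _ => KV.nsmul_eq_zero y) ⟨F, hF1, fun σ hσ y _ => hF2 σ hσ y⟩ ?_
  intro ℓ hℓ hℓB A hA σ hσ y hy
  have : NeZero ℓ := ⟨hℓ.ne_zero⟩
  rw [Finset.mem_union, not_or] at hℓB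
  have h1 : ¬ ℓ ∣ n * P.p := fun h2 =>
    hℓB.2 (Nat.mem_primeFactors.mpr ⟨hℓ, h2, mul_ne_zero (NeZero.ne n) P.pp.ne_zero⟩)
  have h3 := kv_frob n P.p ℓ hℓ (fun h4 => h1 (h4.mul_right _)) (fun h4 => h1 (h4.mul_left n)) A hA
    σ hσ y
  rw [hUle (hUst σ y hy) ℓ hℓ (fun h4 => h1 (h4.mul_right _)) hℓB.1] at h3
  rw [natCast_zsmul]
  exact h3

/-- **Contract of BLR, part 2.** -/
theorem blrNonEis (P : FreyPackage)
    (hirr : GaloisRepIsIrreducible (K := AlgebraicClosure ℚ) ℚ P.freyCurve P.p) : BLRNonEis P :=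
  fun W hW S => exists_prime_ne P (by have := P.hp5; omega) hirr W hW S

end Fermat.Agent.MR.Glue
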