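import Fermat.Agent.MR.Glue.Contract
import Fermat.Agent.MR.Glue.Frob

/-!
# MR / Glue / Final : the two contracts of block GLUE
-/

set_option autoImplicit false

namespace Fermat.Agent.MR.Glue

/-- **(GLUE-in).** -/
theorem glueIn : GlueInStatement := glueIn_of blrCopy blrNonEis

end Fermat.Agent.MR.Glue
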