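import Mathlib
import Fermat.Agent.Lib.QuadRep.DimLeTwo

/-!
# MR / Glue / BLRAbs: the abstract Boston--Lenstra--Ribet argument

`k` a field, `G` a group, `d : G →* k` a character.  Two representations `ρE`, `ρW` of `G` such that every `g` satisfies a
COMMON quadratic relation `g² - a g + d(g) = 0` on `E` and on `W`.  `E` irreducible, `c : G` with `d c ≠ 1`,
`(c - 1)(c - d c) = 0` on `E`, `c ≠ 1`, `c ≠ d c` on `E`.  Then every nonzero `W` contains a copy of `E`.

Proof (generalised matrix algebras, by hand).  `e = (c - λ)/(1 - λ)`, `f = 1 - e` (`λ = d c`).  In ANY module satisfying the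
quadratics: `e x e = α(x) e`, `f x f = α'(x) f` with scalars independent of the module (`proj_mul_mul_proj`).
-/

set_option autoImplicit false

namespace Fermat.Agent.MR.Glue

open Fermat.Agent.Lib.QuadRep

section Generic

variable {k G M : Type*} [Field k] [Group G] [AddCommGroup M] [Module k M]

/-- The projector `(c - ν)/(μ - ν)`. -/
noncomputable def proj (ρ : G →* Module.End k M) (c : G) (μ ν : k) : Module.End k M :=
  (μ - ν)⁻¹ • (ρ c - ν • 1)

theorem core_identity {A : Type*} [Ring A] [Algebra k A] (C X : A) (μ ν ax s : k)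
    (hC : C * C = (μ + ν) • C - (μ * ν) • 1)
    (hA : C * X + X * C = ax • C + (μ + ν) • X + s • 1) :
    (C - ν • 1) * X * (C - ν • 1) = (s + ax * μ) • (C - ν • 1) := by
  have hXC : X * C = ax • C + (μ + ν) • X + s • 1 - C * X := by rw [← hA]; abel
  have h1 : C * X * C = ax • (C * C) + (μ + ν) • (C * X) + s • C - (C * C) * X := by
    rw [mul_assoc, hXC, mul_sub, mul_add, mul_add, mul_smul_comm, mul_smul_comm, mul_smul_comm, mul_one,
      mul_assoc]
  have h2 : (C - ν • 1) * X * (C - ν • 1) = C * X * C - ν • (C * X + X * C) + (ν * ν) • X := by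
    simp only [sub_mul, mul_sub, smul_mul_assoc, mul_smul_comm, one_mul, mul_one, smul_sub, smul_add,
      smul_smul]
    abel
  rw [h2, h1, hA, hC, sub_mul, smul_mul_assoc, smul_mul_assoc, one_mul]
  module

variable (ρ : G →* Module.End k M) (d : G →* k) (a : G → k)

theorem sq_eq (hq : ∀ g, ρ g * ρ g - a g • ρ g + d g • (1 : Module.End k M) = 0) (c : G) (μ ν : k)
    (hs : a c = μ + ν) (hp : d c = μ * ν) :
    ρ c * ρ c = (μ + ν) • ρ c - (μ * ν) • 1 := by
  have := hq c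
  rw [hs, hp] at this
  rw [← sub_eq_zero, ← this]
  abel

theorem proj_mul_mul_proj (hq : ∀ g, ρ g * ρ g - a g • ρ g + d g • (1 : Module.End k M) = 0) (c : G)
    (μ ν : k) (hs : a c = μ + ν) (hp : d c = μ * ν) (x : G) :
    proj ρ c μ ν * ρ x * proj ρ c μ ν = ((μ - ν)⁻¹ * (a (c * x) - ν * a x)) • proj ρ c μ ν := by
  have h1 := core_identity (ρ c) (ρ x) μ ν (a x) (a (c * x) - a x * a c) (sq_eq ρ d a hq c μ ν hs hp)
    (by rw [anticomm_aux ρ d a hq c x, hs])
  unfold proj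
  rw [smul_mul_assoc, smul_mul_assoc, mul_smul_comm, h1, hs, smul_smul, smul_smul, smul_smul]
  congr 1
  ring

theorem proj_add_proj (c : G) (μ ν : k) (hμν : μ ≠ ν) : proj ρ c μ ν + proj ρ c ν μ = 1 := by
  unfold proj
  have h1 : (ν - μ)⁻¹ = -(μ - ν)⁻¹ := by rw [← neg_sub, inv_neg]
  rw [h1, neg_smul, ← sub_eq_add_neg, ← smul_sub]
  have h2 : ρ c - ν • (1 : Module.End k M) - (ρ c - μ • 1) = (μ - ν) • 1 := by
    rw [sub_smul]; abel
  rw [h2, smul_smul, inv_mul_cancel₀ (sub_ne_zero.mpr hμν), one_smul]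

theorem proj_mul_proj (hq : ∀ g, ρ g * ρ g - a g • ρ g + d g • (1 : Module.End k M) = 0) (c : G)
    (μ ν : k) (hμν : μ ≠ ν) (hs : a c = μ + ν) (hp : d c = μ * ν) :
    proj ρ c μ ν * proj ρ c μ ν = proj ρ c μ ν := by
  have hC := sq_eq ρ d a hq c μ ν hs hp
  have h1 : (ρ c - ν • 1) * (ρ c - ν • 1) = (μ - ν) • (ρ c - ν • (1 : Module.End k M)) := by
    simp only [sub_mul, mul_sub, smul_mul_assoc, mul_smul_comm, one_mul, mul_one, hC]
    module
  unfold proj
  rw [smul_mul_assoc, mul_smul_comm, h1, smul_smul, smul_smul, mul_assoc,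
    inv_mul_cancel₀ (sub_ne_zero.mpr hμν), mul_one]

/-- `f x e x' f = γ(x, x') f`. -/
theorem proj_chain (hq : ∀ g, ρ g * ρ g - a g • ρ g + d g • (1 : Module.End k M) = 0) (c : G)
    (μ ν : k) (hμν : μ ≠ ν) (hs : a c = μ + ν) (hp : d c = μ * ν) (x x' : G) :
    proj ρ c ν μ * ρ x * proj ρ c μ ν * ρ x' * proj ρ c ν μ =
      ((ν - μ)⁻¹ * (a (c * (x * x')) - μ * a (x * x'))
        - ((ν - μ)⁻¹ * (a (c * x) - μ * a x)) * ((ν - μ)⁻¹ * (a (c * x') - μ * a x'))) •
        proj ρ c ν μ := by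
  have hs' : a c = ν + μ := by rw [hs, add_comm]
  have hp' : d c = ν * μ := by rw [hp, mul_comm]
  set f := proj ρ c ν μ with hf
  have he : proj ρ c μ ν = 1 - f := by rw [← proj_add_proj ρ c μ ν hμν]; abel
  have hff : f * f = f := proj_mul_proj ρ d a hq c ν μ hμν.symm hs' hp'
  have h1 := proj_mul_mul_proj ρ d a hq c ν μ hs' hp' (x * x')
  have h2 := proj_mul_mul_proj ρ d a hq c ν μ hs' hp' x
  have h3 := proj_mul_mul_proj ρ d a hq c ν μ hs' hp' x'
  rw [← hf] at h1 h2 h3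
  have h4 : f * ρ x * (1 - f) * ρ x' * f = f * ρ (x * x') * f - (f * ρ x * f) * (f * ρ x' * f) := by
    have : (f * ρ x * f) * (f * ρ x' * f) = f * ρ x * (f * f) * ρ x' * f := by
      simp only [mul_assoc]
    rw [this, hff, map_mul]
    simp only [mul_sub, sub_mul, mul_one, mul_assoc]
  rw [he, h4, h1, h2, h3, smul_mul_assoc, mul_smul_comm, hff, smul_smul, ← sub_smul]

/-- The scalar `γ(x, x')`. -/
noncomputable def gam (a : G → k) (c : G) (μ ν : k) (x x' : G) : k :=
  (ν - μ)⁻¹ * (a (c * (x * x')) - μ * a (x * x'))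
    - ((ν - μ)⁻¹ * (a (c * x) - μ * a x)) * ((ν - μ)⁻¹ * (a (c * x') - μ * a x'))

/-- The span of the orbit of a vector. -/
def orbitSpan (u : M) : Submodule k M := Submodule.span k (Set.range fun x : G => ρ x u)

theorem mem_orbitSpan (u : M) (x : G) : ρ x u ∈ orbitSpan ρ u := Submodule.subset_span ⟨x, rfl⟩

theorem self_mem_orbitSpan (u : M) : u ∈ orbitSpan ρ u := by
  have := mem_orbitSpan ρ u 1
  rwa [map_one, Module.End.one_apply] at this

theorem orbitSpan_stable (u : M) (g : G) (y : M) (hy : y ∈ orbitSpan ρ u) : ρ g y ∈ orbitSpan ρ u := by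
  induction hy using Submodule.span_induction with
  | mem y hy =>
    obtain ⟨x, rfl⟩ := hy
    have : ρ g (ρ x u) = ρ (g * x) u := by rw [map_mul, Module.End.mul_apply]
    simp only [this]
    exact mem_orbitSpan ρ u _
  | zero => rw [map_zero]; exact Submodule.zero_mem _
  | add y z _ _ hy hz => rw [map_add]; exact Submodule.add_mem _ hy hz
  | smul r y _ hy => rw [map_smul]; exact Submodule.smul_mem _ _ hy

theorem orbitSpan_eq_top
    (hirr : ∀ U : Submodule k M, (∀ g, ∀ x ∈ U, ρ g x ∈ U) → U = ⊥ ∨ U = ⊤) (u : M) (hu : u ≠ 0) :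
    orbitSpan ρ u = ⊤ := by
  rcases hirr (orbitSpan ρ u) (fun g y hy => orbitSpan_stable ρ u g y hy) with h | h
  · exact absurd ((Submodule.mem_bot k).mp (h ▸ self_mem_orbitSpan ρ u)) hu
  · exact h

theorem eq_zero_of_orbit {X : Type*} [AddCommGroup X] [Module k X]
    (hirr : ∀ U : Submodule k M, (∀ g, ∀ x ∈ U, ρ g x ∈ U) → U = ⊥ ∨ U = ⊤) (u : M) (hu : u ≠ 0)
    (T : M →ₗ[k] X) (hT : ∀ x, T (ρ x u) = 0) : T = 0 := by
  have h1 : orbitSpan ρ u ≤ LinearMap.ker T := by
    rw [orbitSpan, Submodule.span_le]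
    rintro _ ⟨x, rfl⟩
    exact hT x
  rw [orbitSpan_eq_top ρ hirr u hu, top_le_iff, LinearMap.ker_eq_top] at h1
  exact h1

theorem exists_gam_ne_zero (hq : ∀ g, ρ g * ρ g - a g • ρ g + d g • (1 : Module.End k M) = 0)
    (hirr : ∀ U : Submodule k M, (∀ g, ∀ x ∈ U, ρ g x ∈ U) → U = ⊥ ∨ U = ⊤) (c : G)
    (μ ν : k) (hμν : μ ≠ ν) (hs : a c = μ + ν) (hp : d c = μ * ν)
    (he : proj ρ c μ ν ≠ 0) (hf : proj ρ c ν μ ≠ 0) : ∃ x x' : G, gam a c μ ν x x' ≠ 0 := by
  by_contra hcon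
  push Not at hcon
  have hs' : a c = ν + μ := by rw [hs, add_comm]
  have hp' : d c = ν * μ := by rw [hp, mul_comm]
  have hff := proj_mul_proj ρ d a hq c ν μ hμν.symm hs' hp'
  have hz : ∀ x x' : G, proj ρ c ν μ * ρ x * proj ρ c μ ν * ρ x' * proj ρ c ν μ = 0 := by
    intro x x'
    rw [proj_chain ρ d a hq c μ ν hμν hs hp x x']
    have := hcon x x'
    unfold gam at this
    rw [this, zero_smul]
  obtain ⟨v, hv⟩ : ∃ v, proj ρ c ν μ v ≠ 0 := by
    by_contra h
    push Not at h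
    exact hf (LinearMap.ext h)
  set v₁ := proj ρ c ν μ v with hv₁
  have hfv : proj ρ c ν μ v₁ = v₁ := by
    rw [hv₁, ← Module.End.mul_apply, hff]
  by_cases hA : ∃ x', proj ρ c μ ν (ρ x' v₁) ≠ 0
  · obtain ⟨x', hx'⟩ := hA
    apply hf
    apply eq_zero_of_orbit ρ hirr _ hx'
    intro x
    have := LinearMap.congr_fun (hz x x') v₁
    simp only [Module.End.mul_apply, LinearMap.zero_apply] at this
    rw [hfv] at this
    exact this
  · push Not at hA
    exact he (eq_zero_of_orbit ρ hirr v₁ hv _ hA)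

theorem eq_zero_of_proj_orbit (hq : ∀ g, ρ g * ρ g - a g • ρ g + d g • (1 : Module.End k M) = 0) (c : G)
    (μ ν : k) (hμν : μ ≠ ν) (hs : a c = μ + ν) (hp : d c = μ * ν) (x x' : G)
    (hγ : gam a c μ ν x x' ≠ 0) (y : M) (hy : ∀ z : G, proj ρ c μ ν (ρ z y) = 0) : y = 0 := by
  have h1 : proj ρ c ν μ y = y := by
    have h2 := LinearMap.congr_fun (proj_add_proj ρ c μ ν hμν) y
    have h3 := hy 1
    rw [map_one, Module.End.one_apply] at h3
    rw [LinearMap.add_apply, h3, zero_add, Module.End.one_apply] at h2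
    exact h2
  have h2 := LinearMap.congr_fun (proj_chain ρ d a hq c μ ν hμν hs hp x x') y
  simp only [Module.End.mul_apply, LinearMap.smul_apply] at h2
  rw [h1, hy x', map_zero, map_zero] at h2
  exact (smul_eq_zero.mp h2.symm).resolve_left hγ

end Generic

section Main

variable {k G E W : Type*} [Field k] [Group G] [AddCommGroup E] [Module k E] [AddCommGroup W]
  [Module k W]

/-- The product representation. -/
def prodRep (ρE : G →* Module.End k E) (ρW : G →* Module.End k W) : G →* Module.End k (E × W) where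
  toFun g := LinearMap.prodMap (ρE g) (ρW g)
  map_one' := by
    ext x <;> simp
  map_mul' g h := by
    ext x <;> simp

theorem prodRep_apply (ρE : G →* Module.End k E) (ρW : G →* Module.End k W) (g : G) (z : E × W) :
    prodRep ρE ρW g z = (ρE g z.1, ρW g z.2) := rfl

theorem proj_prodRep_apply (ρE : G →* Module.End k E) (ρW : G →* Module.End k W) (c : G) (μ ν : k)
    (z : E × W) : proj (prodRep ρE ρW) c μ ν z = (proj ρE c μ ν z.1, proj ρW c μ ν z.2) := by
  unfold proj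
  simp only [LinearMap.smul_apply, LinearMap.sub_apply, Module.End.one_apply, prodRep_apply]
  rfl

theorem prodRep_quad (ρE : G →* Module.End k E) (ρW : G →* Module.End k W) (d : G →* k) (a : G → k)
    (hqE : ∀ g, ρE g * ρE g - a g • ρE g + d g • (1 : Module.End k E) = 0)
    (hqW : ∀ g, ρW g * ρW g - a g • ρW g + d g • (1 : Module.End k W) = 0) (g : G) :
    prodRep ρE ρW g * prodRep ρE ρW g - a g • prodRep ρE ρW g
      + d g • (1 : Module.End k (E × W)) = 0 := by
  apply LinearMap.ext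
  intro z
  have h1 := LinearMap.congr_fun (hqE g) z.1
  have h2 := LinearMap.congr_fun (hqW g) z.2
  simp only [LinearMap.add_apply, LinearMap.sub_apply, Module.End.mul_apply, LinearMap.smul_apply,
    Module.End.one_apply, LinearMap.zero_apply] at h1 h2 ⊢
  simp only [prodRep_apply]
  exact Prod.ext h1 h2

/-- **Abstract BLR**, with a given common trace function. -/
theorem exists_embedding_aux (ρE : G →* Module.End k E) (ρW : G →* Module.End k W) (d : G →* k)
    (a : G → k)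
    (hqE : ∀ g, ρE g * ρE g - a g • ρE g + d g • (1 : Module.End k E) = 0)
    (hqW : ∀ g, ρW g * ρW g - a g • ρW g + d g • (1 : Module.End k W) = 0)
    (hirr : ∀ U : Submodule k E, (∀ g, ∀ x ∈ U, ρE g x ∈ U) → U = ⊥ ∨ U = ⊤) (c : G)
    (μ ν : k) (hμν : μ ≠ ν) (hs : a c = μ + ν) (hp : d c = μ * ν)
    (he : proj ρE c μ ν ≠ 0) (hf : proj ρE c ν μ ≠ 0) [Nontrivial W] :
    ∃ φ : E →ₗ[k] W, Function.Injective φ ∧ ∀ g x, φ (ρE g x) = ρW g (φ x) := by
  obtain ⟨x, x', hγ⟩ := exists_gam_ne_zero ρE d a hqE hirr c μ ν hμν hs hp he hf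
  -- the base vectors
  obtain ⟨v, hv⟩ : ∃ v, proj ρE c μ ν v ≠ 0 := by
    by_contra h
    push Not at h
    exact he (LinearMap.ext h)
  obtain ⟨y, hy⟩ := exists_ne (0 : W)
  obtain ⟨z, hz⟩ : ∃ z : G, proj ρW c μ ν (ρW z y) ≠ 0 := by
    by_contra h
    push Not at h
    exact hy (eq_zero_of_proj_orbit ρW d a hqW c μ ν hμν hs hp x x' hγ y h)
  set v₀ := proj ρE c μ ν v with hv₀
  set w₀ := proj ρW c μ ν (ρW z y) with hw₀
  have hev : proj ρE c μ ν v₀ = v₀ := by
    rw [hv₀, ← Module.End.mul_apply, proj_mul_proj ρE d a hqE c μ ν hμν hs hp]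
  have hew : proj ρW c μ ν w₀ = w₀ := by
    rw [hw₀, ← Module.End.mul_apply, proj_mul_proj ρW d a hqW c μ ν hμν hs hp]
  set ρ := prodRep ρE ρW with hρ
  have hq := prodRep_quad ρE ρW d a hqE hqW
  set m₀ : E × W := (v₀, w₀) with hm₀
  have hem : proj ρ c μ ν m₀ = m₀ := by
    rw [hρ, proj_prodRep_apply, hm₀]
    exact Prod.ext hev hew
  set Γ := orbitSpan ρ m₀ with hΓ
  -- `e x' z ∈ k m₀` for `z ∈ Γ`
  have hline : ∀ u ∈ Γ, ∀ g : G, ∃ β : k, proj ρ c μ ν (ρ g u) = β • m₀ := by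
    intro u hu g
    induction hu using Submodule.span_induction with
    | mem u hu =>
      obtain ⟨h, rfl⟩ := hu
      refine ⟨(μ - ν)⁻¹ * (a (c * (g * h)) - ν * a (g * h)), ?_⟩
      have h1 := LinearMap.congr_fun (proj_mul_mul_proj ρ d a hq c μ ν hs hp (g * h)) m₀
      simp only [Module.End.mul_apply, LinearMap.smul_apply] at h1
      rw [hem, map_mul, Module.End.mul_apply] at h1
      exact h1
    | zero => exact ⟨0, by simp⟩
    | add u u' _ _ hu hu' =>
      obtain ⟨β, hβ⟩ := hu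
      obtain ⟨β', hβ'⟩ := hu'
      exact ⟨β + β', by rw [map_add, map_add, hβ, hβ', add_smul]⟩
    | smul r u _ hu =>
      obtain ⟨β, hβ⟩ := hu
      exact ⟨r * β, by rw [map_smul, map_smul, hβ, smul_smul]⟩
  have hinj : ∀ u ∈ Γ, u.1 = 0 → u.2 = 0 := by
    intro u hu hu1
    apply eq_zero_of_proj_orbit ρW d a hqW c μ ν hμν hs hp x x' hγ
    intro g
    obtain ⟨β, hβ⟩ := hline u hu g
    rw [hρ, proj_prodRep_apply, prodRep_apply] at hβ
    have h1 := congrArg Prod.fst hβ
    have h2 := congrArg Prod.snd hβ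
    simp only [Prod.smul_fst, Prod.smul_snd, hm₀] at h1 h2
    rw [hu1, map_zero, map_zero] at h1
    have hβ0 : β = 0 := (smul_eq_zero.mp h1.symm).resolve_right hv
    rw [h2, hβ0, zero_smul]
  -- the first projection is bijective on `Γ`
  let π₁ : Γ →ₗ[k] E := (LinearMap.fst k E W).domRestrict Γ
  have hπinj : Function.Injective π₁ := by
    rw [← LinearMap.ker_eq_bot, LinearMap.ker_eq_bot']
    intro u hu
    have h1 : (u : E × W).1 = 0 := hu
    exact Subtype.ext (Prod.ext h1 (hinj u u.2 h1))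
  have hπsurj : Function.Surjective π₁ := by
    rw [← LinearMap.range_eq_top]
    rcases hirr (LinearMap.range π₁) (by
      rintro g _ ⟨u, rfl⟩
      exact ⟨⟨ρ g u, orbitSpan_stable ρ m₀ g u u.2⟩, rfl⟩) with h | h
    · exfalso
      have : v₀ ∈ LinearMap.range π₁ := ⟨⟨m₀, self_mem_orbitSpan ρ m₀⟩, rfl⟩
      rw [h, Submodule.mem_bot] at this
      exact hv this
    · exact h
  let eqv : Γ ≃ₗ[k] E := LinearEquiv.ofBijective π₁ ⟨hπinj, hπsurj⟩
  let φ : E →ₗ[k] W := ((LinearMap.snd k E W).domRestrict Γ).comp eqv.symm.toLinearMap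
  have hφ : ∀ u : Γ, φ (u : E × W).1 = (u : E × W).2 := by
    intro u
    have : eqv.symm (u : E × W).1 = u := by
      rw [LinearEquiv.symm_apply_eq]
      rfl
    change ((eqv.symm (u : E × W).1 : Γ) : E × W).2 = _
    rw [this]
  have hequiv : ∀ g x, φ (ρE g x) = ρW g (φ x) := by
    intro g x
    obtain ⟨u, rfl⟩ := hπsurj x
    have h1 := hφ ⟨ρ g u, orbitSpan_stable ρ m₀ g u u.2⟩
    have h2 := hφ u
    change φ (ρE g (u : E × W).1) = ρW g (φ (u : E × W).1)
    rw [h2]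
    exact h1
  refine ⟨φ, ?_, hequiv⟩
  rw [← LinearMap.ker_eq_bot]
  rcases hirr (LinearMap.ker φ) (by
    intro g x hx
    rw [LinearMap.mem_ker] at hx ⊢
    rw [hequiv, hx, map_zero]) with h | h
  · exact h
  · exfalso
    have h1 : φ v₀ = w₀ := hφ ⟨m₀, self_mem_orbitSpan ρ m₀⟩
    have h2 : v₀ ∈ LinearMap.ker φ := by rw [h]; trivial
    rw [LinearMap.mem_ker, h1] at h2
    exact hz h2

/-- **Abstract BLR.**  Common quadratics on `E` and `W`, `E` irreducible, `c` with the two distinct eigenvalues `1`, `d c`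
on `E`: every nonzero `W` contains a copy of `E`. -/
theorem exists_embedding (ρE : G →* Module.End k E) (ρW : G →* Module.End k W) (d : G →* k)
    (hq : ∀ g, ∃ a : k, ρE g * ρE g - a • ρE g + d g • (1 : Module.End k E) = 0 ∧
      ρW g * ρW g - a • ρW g + d g • (1 : Module.End k W) = 0)
    (hirr : ∀ U : Submodule k E, (∀ g, ∀ x ∈ U, ρE g x ∈ U) → U = ⊥ ∨ U = ⊤) (c : G)
    (hc1 : d c ≠ 1) (hcE : (ρE c - 1) * (ρE c - d c • 1) = 0) (hne1 : ρE c ≠ 1)
    (hned : ρE c ≠ d c • 1) [Nontrivial W] :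
    ∃ φ : E →ₗ[k] W, Function.Injective φ ∧ ∀ g x, φ (ρE g x) = ρW g (φ x) := by
  choose a hqE hqW using hq
  have hac : a c = 1 + d c := by
    by_contra hne
    have h1 : (a c - (1 + d c)) • ρE c = 0 := by
      have h2 : (ρE c - 1) * (ρE c - d c • 1) = ρE c * ρE c - (1 + d c) • ρE c + d c • 1 := by
        simp only [sub_mul, mul_sub, mul_smul_comm, mul_one, one_mul, add_smul, one_smul, smul_sub]
        abel
      rw [h2] at hcE
      have h3 := hqE c
      rw [sub_smul, ← sub_eq_zero.mpr (hcE.trans h3.symm)]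
      abel
    have h2 : ρE c = 0 := (smul_eq_zero.mp h1).resolve_left (sub_ne_zero.mpr hne)
    have h3 : (1 : Module.End k E) = 0 := by
      rw [← map_one ρE, ← mul_inv_cancel c, map_mul, h2, zero_mul]
    exact hne1 (by rw [h2, h3])
  refine exists_embedding_aux ρE ρW d a hqE hqW hirr c 1 (d c) (Ne.symm hc1) hac (one_mul _).symm ?_ ?_
  · intro h
    unfold proj at h
    exact hned (sub_eq_zero.mp ((smul_eq_zero.mp h).resolve_left
      (inv_ne_zero (sub_ne_zero.mpr (Ne.symm hc1)))))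
  · intro h
    unfold proj at h
    rw [one_smul] at h
    exact hne1 (sub_eq_zero.mp ((smul_eq_zero.mp h).resolve_left
      (inv_ne_zero (sub_ne_zero.mpr hc1))))

/-- If moreover `W` is irreducible, `E ≃ W`. -/
theorem exists_equiv (ρE : G →* Module.End k E) (ρW : G →* Module.End k W) (d : G →* k)
    (hq : ∀ g, ∃ a : k, ρE g * ρE g - a • ρE g + d g • (1 : Module.End k E) = 0 ∧
      ρW g * ρW g - a • ρW g + d g • (1 : Module.End k W) = 0)
    (hirr : ∀ U : Submodule k E, (∀ g, ∀ x ∈ U, ρE g x ∈ U) → U = ⊥ ∨ U = ⊤) (c : G)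
    (hc1 : d c ≠ 1) (hcE : (ρE c - 1) * (ρE c - d c • 1) = 0) (hne1 : ρE c ≠ 1)
    (hned : ρE c ≠ d c • 1) [Nontrivial W]
    (hirrW : ∀ U : Submodule k W, (∀ g, ∀ x ∈ U, ρW g x ∈ U) → U = ⊥ ∨ U = ⊤) :
    ∃ φ : E ≃ₗ[k] W, ∀ g x, φ (ρE g x) = ρW g (φ x) := by
  obtain ⟨φ, hinj, hφ⟩ := exists_embedding ρE ρW d hq hirr c hc1 hcE hne1 hned
  have hsurj : Function.Surjective φ := by
    rw [← LinearMap.range_eq_top]
    rcases hirrW (LinearMap.range φ) (by
      rintro g _ ⟨x, rfl⟩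
      exact ⟨ρE g x, hφ g x⟩) with h | h
    · exfalso
      apply hne1
      have h0 : ∀ x : E, x = 0 := by
        intro x
        apply hinj
        rw [map_zero]
        have : φ x ∈ LinearMap.range φ := ⟨x, rfl⟩
        rwa [h, Submodule.mem_bot] at this
      apply LinearMap.ext
      intro x
      rw [h0 (ρE c x), h0 ((1 : Module.End k E) x)]
    · exact h
  exact ⟨LinearEquiv.ofBijective φ ⟨hinj, hsurj⟩, hφ⟩

/-- `E` is not Eisenstein: some `g` does not satisfy `(g - 1)(g - d g) = 0` on `E`. -/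
theorem exists_not_eisenstein (ρE : G →* Module.End k E) (d : G →* k)
    (hirr : ∀ U : Submodule k E, (∀ g, ∀ x ∈ U, ρE g x ∈ U) → U = ⊥ ∨ U = ⊤) (c : G)
    (hc1 : d c ≠ 1) (hcE : (ρE c - 1) * (ρE c - d c • 1) = 0) (hne1 : ρE c ≠ 1)
    (hned : ρE c ≠ d c • 1) :
    ∃ g, ρE g * ρE g - (1 + d g) • ρE g + d g • (1 : Module.End k E) ≠ 0 := by
  by_contra hcon
  push Not at hcon
  obtain ⟨φ, hinj, hφ⟩ := exists_embedding ρE (1 : G →* Module.End k k) d
    (fun g => ⟨1 + d g, hcon g, by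
      simp only [MonoidHom.one_apply, mul_one, add_smul, one_smul]
      abel⟩) hirr c hc1 hcE hne1 hned
  apply hne1
  apply LinearMap.ext
  intro x
  apply hinj
  rw [hφ]
  rfl

/-- Complex conjugation is not a scalar. -/
theorem forall_scalar_of_conj_scalar (ρE : G →* Module.End k E) (d : G →* k) (h2 : (2 : k) ≠ 0)
    (hq : ∀ g, ∃ a : k, ρE g * ρE g - a • ρE g + d g • (1 : Module.End k E) = 0) (c : G)
    (hdc : d c = -1) (ε : k) (hε : ε * ε = 1) (hc : ρE c = ε • 1) [Nontrivial E] (g : G) :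
    ∃ r : k, ρE g = r • 1 := by
  obtain ⟨a, ha⟩ := hq g
  obtain ⟨a', ha'⟩ := hq (c * g)
  rw [map_mul, map_mul, hc, hdc, smul_mul_assoc, one_mul, smul_mul_assoc, mul_smul_comm, smul_smul, hε,
    one_smul, smul_smul, neg_one_mul, neg_smul] at ha'
  have hdg : d g ≠ 0 := by
    intro h
    have : d g * d g⁻¹ = 1 := by rw [← map_mul, mul_inv_cancel, map_one]
    rw [h, zero_mul] at this
    exact zero_ne_one this
  have h1 : (a - a' * ε) • ρE g = (2 * d g) • (1 : Module.End k E) := by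
    rw [sub_smul, two_mul, add_smul, ← sub_eq_zero]
    have : a • ρE g - (a' * ε) • ρE g - (d g • (1 : Module.End k E) + d g • 1) =
        (ρE g * ρE g - (a' * ε) • ρE g + -(d g • (1 : Module.End k E)))
          - (ρE g * ρE g - a • ρE g + d g • 1) := by abel
    rw [this, ha, ha', sub_zero]
  have h3 : a - a' * ε ≠ 0 := by
    intro h
    rw [h, zero_smul] at h1
    have h4 := (smul_eq_zero.mp h1.symm).resolve_left (mul_ne_zero h2 hdg)
    exact one_ne_zero h4
  refine ⟨(a - a' * ε)⁻¹ * (2 * d g), ?_⟩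
  rw [mul_smul, ← h1, smul_smul, inv_mul_cancel₀ h3, one_smul]

/-- **An involution provides the element `c`** (`c * c = 1`, `d c = -1`, characteristic `≠ 2`, `E` irreducible and not
generated by one vector): the four hypotheses on `c` of `exists_embedding`. -/
theorem conj_props (ρE : G →* Module.End k E) (d : G →* k)
    (h2 : (2 : k) ≠ 0)
    (hq : ∀ g, ∃ a : k, ρE g * ρE g - a • ρE g + d g • (1 : Module.End k E) = 0)
    (hirr : ∀ U : Submodule k E, (∀ g, ∀ x ∈ U, ρE g x ∈ U) → U = ⊥ ∨ U = ⊤)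
    (hdim : ∀ v : E, ∃ u : E, ∀ r : k, u ≠ r • v) (c : G) (hcc : c * c = 1) (hdc : d c = -1) :
    (d c ≠ 1 ∧ (ρE c - 1) * (ρE c - d c • 1) = 0 ∧ ρE c ≠ 1 ∧ ρE c ≠ d c • 1) := by
  have hnt : Nontrivial E := by
    obtain ⟨u, hu⟩ := hdim 0
    exact ⟨u, 0, fun h => hu 0 (by rw [h, smul_zero])⟩
  have hsc : ∀ ε : k, ε * ε = 1 → ρE c ≠ ε • 1 := by
    intro ε hε hc
    have hall := forall_scalar_of_conj_scalar ρE d h2 hq c hdc ε hε hc
    obtain ⟨v, hv⟩ := exists_ne (0 : E)
    rcases hirr (k ∙ v) (by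
      intro g x hx
      obtain ⟨r, hr⟩ := hall g
      rw [hr, LinearMap.smul_apply, Module.End.one_apply]
      exact Submodule.smul_mem _ _ hx) with h | h
    · exact hv ((Submodule.span_singleton_eq_bot).mp h)
    · obtain ⟨u, hu⟩ := hdim v
      have : u ∈ k ∙ v := by rw [h]; trivial
      obtain ⟨r, hr⟩ := Submodule.mem_span_singleton.mp this
      exact hu r hr.symm
  refine ⟨?_, ?_, ?_, ?_⟩
  · rw [hdc]
    intro h
    apply h2
    linear_combination (-1 : k) * h
  · have hsq : ρE c * ρE c = 1 := by rw [← map_mul, hcc, map_one]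
    rw [hdc, neg_smul, one_smul, sub_neg_eq_add, sub_mul, mul_add, mul_one, one_mul, hsq]
    abel
  · have := hsc 1 (one_mul 1)
    rwa [one_smul] at this
  · rw [hdc]
    exact hsc (-1) (by ring)

end Main

end Fermat.Agent.MR.Glue
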