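import Fermat.Agent.MR.Glue.BLRAbs
import Fermat.Agent.Lib.QuadRep.Powers
import Fermat.Agent.GAL.Cyclo
import Fermat.Agent.GAL.Interface

/-!
# MR / Glue / BLRGal: Boston--Lenstra--Ribet for `G_ℚ`-modules killed by `p`

`FrobMod p a B X` : `X` is a `G_ℚ`-module killed by `p`, factoring through a finite quotient, on which every Frobenius
element `σ` at a prime `ℓ ∉ B` satisfies `σ² - a_ℓ σ + ℓ = 0`.

* `exists_embedding_GQ` : `E`, `W` two such modules (same `a`, `B`), `p` odd, `E` irreducible and not cyclic, `W ≠ 0`: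
  there is an injective equivariant homomorphism `E → W`.
* `exists_equiv_GQ` : if moreover `W` is irreducible it is an isomorphism.
* `exists_prime_not_eisenstein` : there is a prime `ℓ ∉ B` with `a_ℓ ≢ ℓ + 1 (mod p)`.
-/

set_option autoImplicit false

namespace Fermat.Agent.MR.Glue

open Fermat.Agent.GAL Fermat.Agent.Lib.QuadRep

/-- The hypotheses on a `G_ℚ`-module. -/
structure FrobMod (p : ℕ) (a : ℕ → ℤ) (B : Finset ℕ) (X : Type*) [AddCommGroup X]
    [DistribMulAction GQ X] : Prop where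
  tors : ∀ x : X, p • x = 0
  cont : ∃ F : IntermediateField ℚ (AlgebraicClosure ℚ), FiniteDimensional ℚ F ∧
    ∀ σ : GQ, (∀ x ∈ F, σ x = x) → ∀ y : X, σ • y = y
  frob : ∀ ℓ : ℕ, ℓ.Prime → ℓ ∉ B → ∀ A : ValuationSubring (AlgebraicClosure ℚ), A.LiesOverPrime ℓ →
    ∀ σ : GQ, A.IsFrobeniusAt σ ℓ → ∀ y : X, σ • σ • y - a ℓ • σ • y + (ℓ : ℤ) • y = 0

variable (p : ℕ) [Fact p.Prime]

/-- The mod `p` cyclotomic character with values in the monoid `ZMod p`. -/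
noncomputable def dP : GQ →* ZMod p := (Units.coeHom (ZMod p)).comp (Cyclo.epsK p (ZMod p))

/-- The representation attached to an action on a `ZMod p`-module. -/
noncomputable def repOf (X : Type*) [AddCommGroup X] [Module (ZMod p) X] [DistribMulAction GQ X] :
    GQ →* Module.End (ZMod p) X where
  toFun σ := (DistribSMul.toAddMonoidHom X σ).toZModLinearMap p
  map_one' := by
    ext x
    simp
  map_mul' σ τ := by
    ext x
    simp [mul_smul]

theorem repOf_apply (X : Type*) [AddCommGroup X] [Module (ZMod p) X] [DistribMulAction GQ X] (σ : GQ)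
    (x : X) : repOf p X σ x = σ • x := rfl

variable {p}

theorem repOf_quad_frob {a : ℕ → ℤ} {B : Finset ℕ} {X : Type*} [AddCommGroup X] [Module (ZMod p) X]
    [DistribMulAction GQ X] (hX : FrobMod p a B X) {ℓ : ℕ} (hℓ : ℓ.Prime) (hℓB : ℓ ∉ B)
    (A : ValuationSubring (AlgebraicClosure ℚ)) (hA : A.LiesOverPrime ℓ) (σ : GQ)
    (hσ : A.IsFrobeniusAt σ ℓ) :
    repOf p X σ * repOf p X σ - ((a ℓ : ℤ) : ZMod p) • repOf p X σ
      + ((ℓ : ℕ) : ZMod p) • (1 : Module.End (ZMod p) X) = 0 := by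
  apply LinearMap.ext
  intro y
  have h := hX.frob ℓ hℓ hℓB A hA σ hσ y
  simp only [LinearMap.add_apply, LinearMap.sub_apply, Module.End.mul_apply, LinearMap.smul_apply,
    Module.End.one_apply, LinearMap.zero_apply, repOf_apply]
  rw [Int.cast_smul_eq_zsmul, Nat.cast_smul_eq_nsmul, ← natCast_zsmul]
  exact h

theorem repOf_eq_of_agree {X : Type*} [AddCommGroup X] [Module (ZMod p) X]
    [DistribMulAction GQ X] {F : IntermediateField ℚ (AlgebraicClosure ℚ)}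
    (hF : ∀ σ : GQ, (∀ x ∈ F, σ x = x) → ∀ y : X, σ • y = y) {g h : GQ} (hgh : ∀ x ∈ F, h x = g x) :
    repOf p X h = repOf p X g := by
  apply LinearMap.ext
  intro y
  rw [repOf_apply, repOf_apply]
  have h1 : (g⁻¹ * h) • y = y := by
    apply hF
    intro x hx
    rw [AlgEquiv.mul_apply, hgh x hx, ← AlgEquiv.mul_apply, inv_mul_cancel, AlgEquiv.one_apply]
  rw [mul_smul] at h1
  calc h • y = g • g⁻¹ • h • y := by rw [smul_smul, mul_inv_cancel, one_smul]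
    _ = g • y := by rw [h1]

/-- Every `g` satisfies a common quadratic relation on `E` and `W`. -/
theorem common_quad (hFD : FrobeniusDensity) {a : ℕ → ℤ} {B : Finset ℕ} {E W : Type*} [AddCommGroup E]
    [Module (ZMod p) E] [DistribMulAction GQ E] [AddCommGroup W] [Module (ZMod p) W]
    [DistribMulAction GQ W] (hE : FrobMod p a B E) (hW : FrobMod p a B W) (g : GQ) :
    ∃ a' : ZMod p,
      repOf p E g * repOf p E g - a' • repOf p E g + dP p g • (1 : Module.End (ZMod p) E) = 0 ∧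
      repOf p W g * repOf p W g - a' • repOf p W g + dP p g • (1 : Module.End (ZMod p) W) = 0 := by
  obtain ⟨F₁, hF₁, h₁⟩ := hE.cont
  obtain ⟨F₂, hF₂, h₂⟩ := hW.cont
  obtain ⟨F₃, hF₃, h₃⟩ := Cyclo.epsK_cont p (ZMod p)
  obtain ⟨ℓ, A, σ, b, hℓ, hℓB, hA, hσ, hag⟩ := hFD (F₁ ⊔ F₂ ⊔ F₃) inferInstance g (B ∪ {p})
  have hℓB' : ℓ ∉ B := fun h => hℓB (Finset.mem_union_left _ h)
  have hℓp : ℓ ≠ p := fun h => hℓB (Finset.mem_union_right _ (Finset.mem_singleton.mpr h))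
  have hle₁ : F₁ ≤ F₁ ⊔ F₂ ⊔ F₃ := le_sup_left.trans le_sup_left
  have hle₂ : F₂ ≤ F₁ ⊔ F₂ ⊔ F₃ := le_sup_right.trans le_sup_left
  have hle₃ : F₃ ≤ F₁ ⊔ F₂ ⊔ F₃ := le_sup_right
  have e1 : repOf p E (σ ^ b) = repOf p E g :=
    repOf_eq_of_agree h₁ fun x hx => hag x (hle₁ hx)
  have e2 : repOf p W (σ ^ b) = repOf p W g :=
    repOf_eq_of_agree h₂ fun x hx => hag x (hle₂ hx)
  have e3 : dP p g = ((ℓ : ℕ) : ZMod p) ^ b := by
    have h4 : Cyclo.epsK p (ZMod p) (g⁻¹ * σ ^ b) = 1 := by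
      apply h₃
      intro x hx
      rw [AlgEquiv.mul_apply, hag x (hle₃ hx), ← AlgEquiv.mul_apply, inv_mul_cancel,
        AlgEquiv.one_apply]
    have h5 : Cyclo.epsK p (ZMod p) g = Cyclo.epsK p (ZMod p) (σ ^ b) := by
      rw [map_mul, map_inv, inv_mul_eq_one] at h4
      exact h4
    change ((Cyclo.epsK p (ZMod p) g : (ZMod p)ˣ) : ZMod p) = _
    rw [h5, map_pow, Units.val_pow_eq_pow_val, Cyclo.epsK_frobenius p (ZMod p) hℓ hℓp hA hσ]
  obtain ⟨b', hb'⟩ := quadratic_pow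
    (A := Module.End (ZMod p) E × Module.End (ZMod p) W) (repOf p E σ, repOf p W σ)
    ((a ℓ : ℤ) : ZMod p) ((ℓ : ℕ) : ZMod p)
    (Prod.ext (repOf_quad_frob hE hℓ hℓB' A hA σ hσ) (repOf_quad_frob hW hℓ hℓB' A hA σ hσ)) b
  refine ⟨b', ?_, ?_⟩
  · have := congrArg Prod.fst hb'
    simp only [Prod.fst_add, Prod.fst_sub, Prod.fst_mul, Prod.smul_fst, Prod.fst_one, Prod.fst_zero,
      Prod.pow_fst] at this
    rw [← map_pow, e1, ← e3] at this
    exact this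
  · have := congrArg Prod.snd hb'
    simp only [Prod.snd_add, Prod.snd_sub, Prod.snd_mul, Prod.smul_snd, Prod.snd_one, Prod.snd_zero,
      Prod.pow_snd] at this
    rw [← map_pow, e2, ← e3] at this
    exact this

theorem two_ne_zero_zmod (hp2 : p ≠ 2) : (2 : ZMod p) ≠ 0 := by
  intro h
  have h1 : ((2 : ℕ) : ZMod p) = 0 := by exact_mod_cast h
  rw [ZMod.natCast_eq_zero_iff] at h1
  exact hp2 ((Nat.prime_dvd_prime_iff_eq Fact.out Nat.prime_two).mp h1)

theorem irr_submodule {E : Type*} [AddCommGroup E] [Module (ZMod p) E] [DistribMulAction GQ E]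
    (hirr : ∀ U : AddSubgroup E, (∀ σ : GQ, ∀ x ∈ U, σ • x ∈ U) → U = ⊥ ∨ U = ⊤)
    (U : Submodule (ZMod p) E) (hU : ∀ g, ∀ x ∈ U, repOf p E g x ∈ U) : U = ⊥ ∨ U = ⊤ := by
  rcases hirr U.toAddSubgroup hU with h | h
  · left
    rw [eq_bot_iff]
    intro x hx
    have : x ∈ U.toAddSubgroup := hx
    rw [h] at this
    exact this
  · right
    rw [eq_top_iff]
    intro x _
    have : x ∈ U.toAddSubgroup := by rw [h]; trivial
    exact this

theorem dim_submodule {E : Type*} [AddCommGroup E] [Module (ZMod p) E]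
    (hdim : ∀ v : E, ∃ u : E, ∀ n : ℤ, u ≠ n • v) (v : E) : ∃ u : E, ∀ r : ZMod p, u ≠ r • v := by
  obtain ⟨u, hu⟩ := hdim v
  refine ⟨u, fun r => ?_⟩
  obtain ⟨n, rfl⟩ := ZMod.intCast_surjective r
  rw [Int.cast_smul_eq_zsmul]
  exact hu n

/-- **BLR for `G_ℚ`-modules.** -/
theorem exists_embedding_GQ (hFD : FrobeniusDensity) (hp2 : p ≠ 2) {a : ℕ → ℤ} {B : Finset ℕ}
    {E W : Type*} [AddCommGroup E] [DistribMulAction GQ E] [AddCommGroup W] [DistribMulAction GQ W]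
    (hE : FrobMod p a B E) (hW : FrobMod p a B W)
    (hirr : ∀ U : AddSubgroup E, (∀ σ : GQ, ∀ x ∈ U, σ • x ∈ U) → U = ⊥ ∨ U = ⊤)
    (hdim : ∀ v : E, ∃ u : E, ∀ n : ℤ, u ≠ n • v) [Nontrivial W] :
    ∃ φ : E →+ W, Function.Injective φ ∧ ∀ (σ : GQ) (x : E), φ (σ • x) = σ • φ x := by
  let _ : Module (ZMod p) E := AddCommGroup.zmodModule hE.tors
  let _ : Module (ZMod p) W := AddCommGroup.zmodModule hW.tors
  obtain ⟨c, hcc, hc⟩ := Cyclo.exists_conj
  have hdc : dP p c = -1 := by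
    change ((Cyclo.epsK p (ZMod p) c : (ZMod p)ˣ) : ZMod p) = -1
    rw [Cyclo.epsK_eq_neg_one p (ZMod p) (hc p)]
    simp
  obtain ⟨h1, h2, h3, h4⟩ := conj_props (repOf p E) (dP p) (two_ne_zero_zmod hp2)
    (fun g => (common_quad hFD hE hE g).imp fun _ h => h.1) (irr_submodule hirr) (dim_submodule hdim)
    c hcc hdc
  obtain ⟨φ, hinj, hφ⟩ := exists_embedding (repOf p E) (repOf p W) (dP p) (common_quad hFD hE hW)
    (irr_submodule hirr) c h1 h2 h3 h4
  exact ⟨φ.toAddMonoidHom, hinj, hφ⟩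

/-- If moreover `W` is irreducible: an isomorphism. -/
theorem exists_equiv_GQ (hFD : FrobeniusDensity) (hp2 : p ≠ 2) {a : ℕ → ℤ} {B : Finset ℕ}
    {E W : Type*} [AddCommGroup E] [DistribMulAction GQ E] [AddCommGroup W] [DistribMulAction GQ W]
    (hE : FrobMod p a B E) (hW : FrobMod p a B W)
    (hirr : ∀ U : AddSubgroup E, (∀ σ : GQ, ∀ x ∈ U, σ • x ∈ U) → U = ⊥ ∨ U = ⊤)
    (hdim : ∀ v : E, ∃ u : E, ∀ n : ℤ, u ≠ n • v) [Nontrivial W]
    (hirrW : ∀ U : AddSubgroup W, (∀ σ : GQ, ∀ x ∈ U, σ • x ∈ U) → U = ⊥ ∨ U = ⊤) :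
    ∃ φ : E ≃+ W, ∀ (σ : GQ) (x : E), φ (σ • x) = σ • φ x := by
  obtain ⟨φ, hinj, hφ⟩ := exists_embedding_GQ hFD hp2 hE hW hirr hdim
  have hsurj : Function.Surjective φ := by
    rw [← AddMonoidHom.range_eq_top]
    rcases hirrW φ.range (by
      rintro σ _ ⟨x, rfl⟩
      exact ⟨σ • x, hφ σ x⟩) with h | h
    · exfalso
      obtain ⟨u, hu⟩ := hdim 0
      apply hu 0
      rw [smul_zero]
      apply hinj
      rw [map_zero]
      have : φ u ∈ φ.range := ⟨u, rfl⟩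
      rwa [h, AddSubgroup.mem_bot] at this
    · exact h
  exact ⟨AddEquiv.ofBijective φ ⟨hinj, hsurj⟩, hφ⟩

/-- `ZMod p` with the trivial action of `G_ℚ`. -/
def TrivZ (p : ℕ) : Type := ZMod p

instance (p : ℕ) : AddCommGroup (TrivZ p) := inferInstanceAs (AddCommGroup (ZMod p))

instance (p : ℕ) [Fact p.Prime] : Nontrivial (TrivZ p) := inferInstanceAs (Nontrivial (ZMod p))

instance (p : ℕ) : DistribMulAction GQ (TrivZ p) where
  smul _ x := x
  one_smul _ := rfl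
  mul_smul _ _ _ := rfl
  smul_zero _ := rfl
  smul_add _ _ _ := rfl

theorem TrivZ.smul_def (σ : GQ) (x : TrivZ p) : σ • x = x := rfl

theorem TrivZ.zsmul_eq_zero (n : ℤ) (hn : (p : ℤ) ∣ n) (x : TrivZ p) : n • x = 0 := by
  obtain ⟨m, rfl⟩ := hn
  have h1 : ∀ y : ZMod p, ((p : ℤ) * m) • y = 0 := by
    intro y
    rw [zsmul_eq_mul]
    push_cast
    rw [ZMod.natCast_self, zero_mul, zero_mul]
  exact h1 x

/-- **`E` is not Eisenstein.** -/
theorem exists_prime_not_eisenstein (hFD : FrobeniusDensity) (hp2 : p ≠ 2) {a : ℕ → ℤ} {B : Finset ℕ}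
    {E : Type*} [AddCommGroup E] [DistribMulAction GQ E] (hE : FrobMod p a B E)
    (hirr : ∀ U : AddSubgroup E, (∀ σ : GQ, ∀ x ∈ U, σ • x ∈ U) → U = ⊥ ∨ U = ⊤)
    (hdim : ∀ v : E, ∃ u : E, ∀ n : ℤ, u ≠ n • v) :
    ∃ ℓ : ℕ, ℓ.Prime ∧ ℓ ∉ B ∧ ¬ (p : ℤ) ∣ a ℓ - ℓ - 1 := by
  by_contra hcon
  push Not at hcon
  have hW : FrobMod p a B (TrivZ p) :=
    { tors := fun x => by
        have := TrivZ.zsmul_eq_zero (p := p) (p : ℤ) dvd_rfl x
        rwa [natCast_zsmul] at this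
      cont := ⟨⊥, inferInstance, fun _ _ _ => rfl⟩
      frob := fun ℓ hℓ hℓB A _ σ _ y => by
        rw [TrivZ.smul_def, TrivZ.smul_def]
        have h1 : y - a ℓ • y + (ℓ : ℤ) • y = (-(a ℓ - ℓ - 1)) • y := by
          rw [neg_zsmul, sub_zsmul, sub_zsmul, one_zsmul]
          abel
        rw [h1]
        exact TrivZ.zsmul_eq_zero _ ((dvd_neg).mpr (hcon ℓ hℓ hℓB)) y }
  obtain ⟨φ, hinj, hφ⟩ := exists_embedding_GQ hFD hp2 hE hW hirr hdim
  have htriv : ∀ (σ : GQ) (x : E), σ • x = x := by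
    intro σ x
    apply hinj
    rw [hφ]
    rfl
  obtain ⟨v, hv⟩ := hdim 0
  have hv0 : v ≠ 0 := fun h => hv 0 (by rw [h, smul_zero])
  rcases hirr (AddSubgroup.zmultiples v) (fun σ x hx => by rwa [htriv]) with h | h
  · exact hv0 (AddSubgroup.zmultiples_eq_bot.mp h)
  · obtain ⟨u, hu⟩ := hdim v
    have : u ∈ AddSubgroup.zmultiples v := by rw [h]; trivial
    obtain ⟨n, hn⟩ := AddSubgroup.mem_zmultiples_iff.mp this
    exact hu n hn.symm

end Fermat.Agent.MR.Glue
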