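import Fermat.Agent.Lib.Ell.VarChange
import Fermat.Prelude.Def_FLTPrelim_ModularRep

/-!
# MR / Glue / Scale : rescaling an integral model makes any finite set of primes bad

`scale W c` has coefficients `c^i a_i`.  It is an integral model of the same curve, its discriminant is `c^12 Δ`, and
`a_ℓ(scale W c) = a_ℓ(W)` for `ℓ ∤ c`.  Consequence (`modularRep_of_congr`): in `ModularRepOfLevel` the congruences are only
needed outside a finite set of primes.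
-/

set_option autoImplicit false

namespace Fermat.Agent.MR.Glue

open WeierstrassCurve Fermat.Agent.Lib.Ell

/-- the model `y² + c a₁ x y + c³ a₃ y = x³ + c² a₂ x² + c⁴ a₄ x + c⁶ a₆`. -/
def scale (W : WeierstrassCurve ℤ) (c : ℤ) : WeierstrassCurve ℤ :=
  ⟨c * W.a₁, c ^ 2 * W.a₂, c ^ 3 * W.a₃, c ^ 4 * W.a₄, c ^ 6 * W.a₆⟩

theorem scale_Δ (W : WeierstrassCurve ℤ) (c : ℤ) : (scale W c).Δ = c ^ 12 * W.Δ := by
  simp only [scale, WeierstrassCurve.Δ, WeierstrassCurve.b₂, WeierstrassCurve.b₄,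
    WeierstrassCurve.b₆, WeierstrassCurve.b₈]
  ring

/-- **Leaf SC1.** `(scale W c).map φ = C • W.map φ` for the change of variables `C = ⟨u, 0, 0, 0⟩`, `u = (φ c)⁻¹`.
PROOF: `WeierstrassCurve.ext` + `variableChange_a₁ …` (`(C • W).a₁ = u⁻¹ * (a₁ + 2 s)` etc.), `Units.val_inv_eq_inv_val`, `simp [scale]`,
`ring`. -/
theorem map_scale {F : Type*} [Field F] (φ : ℤ →+* F) (W : WeierstrassCurve ℤ) (c : ℤ)
    (hc : φ c ≠ 0) :
    (scale W c).map φ =
      (⟨(Units.mk0 (φ c) hc)⁻¹, 0, 0, 0⟩ : VariableChange F) • W.map φ := by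
  ext
  · simp [scale, WeierstrassCurve.variableChange_a₁]
  · simp [scale, WeierstrassCurve.variableChange_a₂]
  · simp [scale, WeierstrassCurve.variableChange_a₃]
  · simp [scale, WeierstrassCurve.variableChange_a₄]
  · simp [scale, WeierstrassCurve.variableChange_a₆]

/-- **Leaf SC2.** (`map_scale` with `φ = Int.castRingHom ℚ`, `mul_smul`). -/
theorem scale_isIntegralModelOf {W : WeierstrassCurve ℤ} {E : WeierstrassCurve ℚ} {c : ℤ}
    (hc : c ≠ 0) (hW : W.IsIntegralModelOf E) : (scale W c).IsIntegralModelOf E := by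
  obtain ⟨C, hC⟩ := hW
  have hc' : (Int.castRingHom ℚ) c ≠ 0 := by simpa using hc
  refine ⟨(⟨(Units.mk0 _ hc')⁻¹, 0, 0, 0⟩ : VariableChange ℚ) * C, ?_⟩
  rw [mul_smul, hC, map_scale _ W c hc']

/-- **Leaf SC3.** (`map_scale` with `φ = Int.castRingHom (ZMod ℓ)`; `apOfModel`, `reductionMod`, `traceOfFrobenius`, `card` unfold;
`Nat.card_eq_of_bijective (vcFun W₀ C) (vcFun_bijective W₀ C)` of `Lib/Ell/VarChange.lean`). -/
theorem scale_apOfModel (W : WeierstrassCurve ℤ) (c : ℤ) {ℓ : ℕ} (hℓ : ℓ.Prime)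
    (hc : ¬ (ℓ : ℤ) ∣ c) : (scale W c).apOfModel ℓ = W.apOfModel ℓ := by
  have : Fact ℓ.Prime := ⟨hℓ⟩
  have hc' : (Int.castRingHom (ZMod ℓ)) c ≠ 0 := by
    intro h
    apply hc
    rw [eq_intCast] at h
    exact (ZMod.intCast_zmod_eq_zero_iff_dvd c ℓ).1 h
  unfold WeierstrassCurve.apOfModel WeierstrassCurve.reductionMod
    WeierstrassCurve.traceOfFrobenius WeierstrassCurve.card
  rw [map_scale _ W c hc']
  rw [Nat.card_eq_of_bijective _ (vcFun_bijective (W.map (Int.castRingHom (ZMod ℓ))) _)]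

/-- **In `ModularRepOfLevel` the congruences are only needed outside a finite set of primes.**
PROOF: `W' := scale W c`, `c := ∏ ℓ ∈ S.filter Nat.Prime, ℓ ≠ 0`.  If `ℓ` is good for `W'` then `ℓ ∤ c ^ 12 * Δ`, so `ℓ ∤ c`, so `ℓ ∉ S`
(`Finset.dvd_prod_of_mem`), `ℓ` is good for `W`, and `a_ℓ(W') = a_ℓ(W)`. -/
theorem modularRep_of_congr (P : FreyPackage) {n : ℕ} (W : WeierstrassCurve ℤ)
    (hW : W.IsIntegralModelOf P.freyCurve) (S : Finset ℕ)
    (g : CuspForm (CongruenceSubgroup.Gamma0 n) 2) (𝔪 : Ideal (integralClosure ℤ ℂ))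
    (hg : g.IsNormalizedEigenform) (h𝔪 : 𝔪.IsMaximal) (hp : (P.p : integralClosure ℤ ℂ) ∈ 𝔪)
    (h : ∀ ℓ : ℕ, ℓ.Prime → ¬ ℓ ∣ n → ℓ ∉ S →
      ∃ b : integralClosure ℤ ℂ, (b : ℂ) = ModularFormClass.qCoeff g ℓ ∧
        b - ((W.apOfModel ℓ : ℤ) : integralClosure ℤ ℂ) ∈ 𝔪) : P.ModularRepOfLevel n := by
  classical
  set c : ℤ := ∏ ℓ ∈ S.filter Nat.Prime, (ℓ : ℤ) with hc
  have hc0 : c ≠ 0 := by
    rw [hc, Finset.prod_ne_zero_iff]
    intro ℓ hℓ
    exact_mod_cast (Finset.mem_filter.mp hℓ).2.ne_zero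
  refine ⟨g, scale W c, 𝔪, hg, scale_isIntegralModelOf hc0 hW, h𝔪, hp, ?_⟩
  intro ℓ hℓ hgood hℓn _
  have h1 : ¬ (ℓ : ℤ) ∣ c := by
    intro h2
    apply hgood
    rw [scale_Δ]
    exact Dvd.dvd.mul_right (dvd_pow h2 (by norm_num)) _
  have h2 : ℓ ∉ S := by
    intro h3
    apply h1
    rw [hc]
    exact Finset.dvd_prod_of_mem (fun ℓ : ℕ => (ℓ : ℤ)) (Finset.mem_filter.mpr ⟨h3, hℓ⟩)
  rw [scale_apOfModel W c hℓ h1]
  exact h ℓ hℓ hℓn h2

end Fermat.Agent.MR.Glue
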