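import Fermat.Agent.MR.Glue.Out
import Fermat.Agent.MR.Glue.Scale

/-!
# MR / Glue / Form : (GLUE-out) a cusp form which is a mod `𝔭` eigenform gives a congruent normalised eigenform

`J ⊆ ℂ` any additive subgroup (think of `ι(𝔪_A)`).  The Hecke operators preserve "all `q`-coefficients in `J`", so
`{t : t G has all coefficients in J}` is an ideal of the Hecke algebra; it is proper if `G` has a coefficient outside `J`.
-/

set_option autoImplicit false

namespace Fermat.Agent.MR.Glue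

open CuspForm CongruenceSubgroup ModularFormClass Fermat.Agent.S49

variable {n : ℕ} [NeZero n]

/-- the Hecke algebra preserves "all `q`-coefficients in `J`". -/
theorem qCoeff_mem_of_mem_heckeAlgebra (J : AddSubgroup ℂ)
    (t : Module.End ℂ (CuspForm (Gamma0 n) 2)) (ht : t ∈ heckeAlgebra n 2 ∅)
    (F : CuspForm (Gamma0 n) 2) (hF : ∀ m, qCoeff F m ∈ J) : ∀ m, qCoeff (t F) m ∈ J := by
  rw [heckeAlgebra] at ht
  induction ht using Algebra.adjoin_induction generalizing F with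
  | mem x hx =>
    rcases hx with ⟨ℓ, hℓ, hℓN, -, rfl⟩ | ⟨q, hqN, hq, -, rfl⟩
    · intro m
      rw [qc_T hℓ hℓN]
      refine J.add_mem (hF _) ?_
      rw [← nsmul_eq_mul]
      refine J.nsmul_mem ?_ _
      split_ifs
      · exact hF _
      · exact J.zero_mem
    · intro m
      rw [qc_U hq hqN]
      exact hF _
  | algebraMap r =>
    intro m
    have : (algebraMap ℤ (Module.End ℂ (CuspForm (Gamma0 n) 2)) r) F = (r : ℂ) • F := by
      rw [Module.algebraMap_end_apply, Int.cast_smul_eq_zsmul]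
    rw [this, qc_smul, ← zsmul_eq_mul]
    exact J.zsmul_mem (hF m) r
  | add x y _ _ hx hy =>
    intro m
    rw [LinearMap.add_apply, qc_add]
    exact J.add_mem (hx F hF m) (hy F hF m)
  | mul x y _ _ hx hy =>
    intro m
    rw [Module.End.mul_apply]
    exact hx _ (hy F hF) m

/-- **Deligne--Serre for a form which is nonzero modulo `J`.** -/
theorem exists_eigenform_of_form (J : AddSubgroup ℂ) (G : CuspForm (Gamma0 n) 2)
    (hG : ∃ m, qCoeff G m ∉ J) :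
    ∃ (g : CuspForm (Gamma0 n) 2) (χ' : heckeAlgebra n 2 ∅ →+* integralClosure ℤ ℂ)
      (𝔪' : Ideal (integralClosure ℤ ℂ)),
      g.IsNormalizedEigenform ∧ 𝔪'.IsMaximal ∧
      (∀ t : heckeAlgebra n 2 ∅, (∀ m, qCoeff (t.1 G) m ∈ J) → χ' t ∈ 𝔪') ∧
      ∀ (ℓ : ℕ) (hℓ : ℓ.Prime) (hℓN : ¬ ℓ ∣ n),
        qCoeff g ℓ = ((χ' (heckeAlgebra.T hℓ hℓN (Set.notMem_empty ℓ)) : integralClosure ℤ ℂ) : ℂ) := by
  let I : Ideal (heckeAlgebra n 2 ∅) :=
    { carrier := {t | ∀ m, qCoeff (t.1 G) m ∈ J}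
      add_mem' := by
        intro s t hs ht m
        have hs' : ∀ m, qCoeff (s.1 G) m ∈ J := hs
        have ht' : ∀ m, qCoeff (t.1 G) m ∈ J := ht
        have : (s + t).1 G = s.1 G + t.1 G := rfl
        rw [this, qc_add]
        exact J.add_mem (hs' m) (ht' m)
      zero_mem' := by
        intro m
        have : (0 : heckeAlgebra n 2 ∅).1 G = (0 : ℂ) • G := by
          rw [zero_smul]; rfl
        rw [this, qc_smul, zero_mul]
        exact J.zero_mem
      smul_mem' := by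
        intro s t ht m
        have : (s • t).1 G = s.1 (t.1 G) := rfl
        rw [this]
        exact qCoeff_mem_of_mem_heckeAlgebra J s.1 s.2 _ ht m }
  have hI : I ≠ ⊤ := by
    intro h
    have h1 : (1 : heckeAlgebra n 2 ∅) ∈ I := by rw [h]; trivial
    obtain ⟨m, hm⟩ := hG
    exact hm (h1 m)
  obtain ⟨g, χ', 𝔪', hg, h𝔪', hI', hq⟩ :=
    exists_eigenform_of_ideal (RingHom.id _) Function.injective_id I hI
  exact ⟨g, χ', 𝔪', hg, h𝔪', fun t ht => hI' t ht, hq⟩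

/-- **(GLUE-out), generic form.**  `J` an additive subgroup of `ℂ` with `p • c ∈ J` for every coefficient `c` of `G`. -/
theorem exists_eigenform_of_form_congr (J : AddSubgroup ℂ) (G : CuspForm (Gamma0 n) 2)
    (hG : ∃ m, qCoeff G m ∉ J) (p : ℕ) (hp : ∀ m, (p : ℂ) * qCoeff G m ∈ J) (S : Finset ℕ)
    (a : ℕ → ℤ)
    (hHQ : ∀ ℓ : ℕ, ℓ.Prime → ¬ ℓ ∣ n → ℓ ∉ S → ∀ m : ℕ,
      qCoeff G (ℓ * m) + (ℓ : ℂ) * (if ℓ ∣ m then qCoeff G (m / ℓ) else 0)
        - (a ℓ : ℂ) * qCoeff G m ∈ J) :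
    ∃ (g : CuspForm (Gamma0 n) 2) (𝔪' : Ideal (integralClosure ℤ ℂ)),
      g.IsNormalizedEigenform ∧ 𝔪'.IsMaximal ∧ (p : integralClosure ℤ ℂ) ∈ 𝔪' ∧
      ∀ ℓ : ℕ, ℓ.Prime → ¬ ℓ ∣ n → ℓ ∉ S →
        ∃ b : integralClosure ℤ ℂ, (b : ℂ) = qCoeff g ℓ ∧
          b - ((a ℓ : ℤ) : integralClosure ℤ ℂ) ∈ 𝔪' := by
  obtain ⟨g, χ', 𝔪', hg, h𝔪', hI, hq⟩ := exists_eigenform_of_form J G hG
  have hint : ∀ r : ℤ, ((r : heckeAlgebra n 2 ∅)).1 G = (r : ℂ) • G := by
    intro r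
    have : ((r : heckeAlgebra n 2 ∅)).1 = algebraMap ℤ (Module.End ℂ (CuspForm (Gamma0 n) 2)) r := by
      rw [← eq_intCast (algebraMap ℤ (heckeAlgebra n 2 ∅)) r]
      rfl
    rw [this, Module.algebraMap_end_apply, Int.cast_smul_eq_zsmul]
  refine ⟨g, 𝔪', hg, h𝔪', ?_, ?_⟩
  · have h1 := hI ((p : ℤ) : heckeAlgebra n 2 ∅) (by
      intro m
      rw [hint, qc_smul]
      exact_mod_cast hp m)
    rw [map_intCast] at h1
    exact_mod_cast h1
  · intro ℓ hℓ hℓn hℓS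
    refine ⟨χ' (heckeAlgebra.T hℓ hℓn (Set.notMem_empty ℓ)), (hq ℓ hℓ hℓn).symm, ?_⟩
    have h1 := hI (heckeAlgebra.T hℓ hℓn (Set.notMem_empty ℓ) - ((a ℓ : ℤ) : heckeAlgebra n 2 ∅)) (by
      intro m
      have : (heckeAlgebra.T hℓ hℓn (Set.notMem_empty ℓ) - ((a ℓ : ℤ) : heckeAlgebra n 2 ∅)).1 G =
          heckeTLin 2 hℓ hℓn G - ((a ℓ : ℤ) : heckeAlgebra n 2 ∅).1 G := rfl
      rw [this, hint, qc_sub, qc_smul, qc_T]
      exact hHQ ℓ hℓ hℓn hℓS m)
    rw [map_sub, map_intCast] at h1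
    exact h1

/-- **(GLUE-out).**  `A` a valuation subring of `ℚ̄` over `p`, `ι : ℚ̄ → ℂ` any embedding, `G` a cusp form of level `n` whose
`q`-expansion is `ι (c m)` with `c m ∈ A`, not all in the maximal ideal, and which is an eigenvector of `T_ℓ` modulo the maximal ideal
with eigenvalue `a_ℓ(W)` for almost all `ℓ`. -/
theorem modularRep_of_form (P : FreyPackage) (W : WeierstrassCurve ℤ)
    (hW : W.IsIntegralModelOf P.freyCurve) (S : Finset ℕ)
    (A : ValuationSubring (AlgebraicClosure ℚ)) (hpA : (P.p : AlgebraicClosure ℚ) ∈ A.nonunits)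
    (ι : AlgebraicClosure ℚ →+* ℂ) (G : CuspForm (Gamma0 n) 2) (c : ℕ → AlgebraicClosure ℚ)
    (hc : ∀ m, c m ∈ A) (hGc : ∀ m, qCoeff G m = ι (c m)) (hne : ∃ m, c m ∉ A.nonunits)
    (hHQ : ∀ ℓ : ℕ, ℓ.Prime → ¬ ℓ ∣ n → ℓ ∉ S → ∀ m : ℕ,
      c (ℓ * m) + (ℓ : AlgebraicClosure ℚ) * (if ℓ ∣ m then c (m / ℓ) else 0)
        - (W.apOfModel ℓ : AlgebraicClosure ℚ) * c m ∈ A.nonunits) :
    P.ModularRepOfLevel n := by
  let J : AddSubgroup ℂ :=
    { carrier := {z | ∃ x ∈ A.nonunits, ι x = z}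
      add_mem' := by
        rintro _ _ ⟨x, hx, rfl⟩ ⟨y, hy, rfl⟩
        refine ⟨x + y, ?_, map_add _ _ _⟩
        rw [ValuationSubring.mem_nonunits_iff] at hx hy ⊢
        exact Valuation.map_add_lt _ hx hy
      zero_mem' := by
        refine ⟨0, ?_, map_zero _⟩
        rw [ValuationSubring.mem_nonunits_iff, map_zero]
        exact zero_lt_one
      neg_mem' := by
        rintro _ ⟨x, hx, rfl⟩
        refine ⟨-x, ?_, map_neg _ _⟩
        rw [ValuationSubring.mem_nonunits_iff] at hx ⊢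
        rwa [Valuation.map_neg] }
  have hJ : ∀ x, ι x ∈ J ↔ x ∈ A.nonunits := by
    intro x
    constructor
    · rintro ⟨y, hy, hxy⟩
      rwa [← ι.injective hxy]
    · intro hx
      exact ⟨x, hx, rfl⟩
  obtain ⟨g, 𝔪', hg, h𝔪', hp, hcong⟩ := exists_eigenform_of_form_congr J G
    (by
      obtain ⟨m, hm⟩ := hne
      exact ⟨m, by rw [hGc, hJ]; exact hm⟩)
    P.p
    (by
      intro m
      rw [hGc, ← map_natCast ι, ← map_mul, hJ, ValuationSubring.mem_nonunits_iff, map_mul]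
      rw [ValuationSubring.mem_nonunits_iff] at hpA
      exact mul_lt_one_of_lt_of_le hpA ((A.valuation_le_one_iff _).mpr (hc m)))
    S W.apOfModel
    (by
      intro ℓ hℓ hℓn hℓS m
      have h1 := hHQ ℓ hℓ hℓn hℓS m
      rw [← hJ] at h1
      have h2 : ι (c (ℓ * m) + (ℓ : AlgebraicClosure ℚ) * (if ℓ ∣ m then c (m / ℓ) else 0)
          - (W.apOfModel ℓ : AlgebraicClosure ℚ) * c m) =
          qCoeff G (ℓ * m) + (ℓ : ℂ) * (if ℓ ∣ m then qCoeff G (m / ℓ) else 0)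
            - (W.apOfModel ℓ : ℂ) * qCoeff G m := by
        rw [map_sub, map_add, map_mul, map_mul, map_natCast, map_intCast, hGc (ℓ * m), hGc m]
        split_ifs
        · rw [hGc]
        · rw [map_zero]
      rwa [h2] at h1)
  exact modularRep_of_congr P W hW S g 𝔪' hg h𝔪' hp hcong

end Fermat.Agent.MR.Glue
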