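import Fermat.Agent.S49
import Fermat.Agent.S23
import Fermat.Agent.Lib.IS.HeckeFinite

/-!
# MR / Glue / Out : Deligne--Serre lifting for the full Hecke algebra of level `N`

`exists_eigenform_of_ideal` : a proper ideal `I` of a commutative ring `C` mapping injectively to the full Hecke algebra
`heckeAlgebra N 2 ∅` gives a normalised eigenform `g`, its system of eigenvalues `χ'` (with values in `ℤ̄`) and a maximal ideal
`𝔪'` of `ℤ̄` with `χ' (Ψ I) ⊆ 𝔪'`.
-/

set_option autoImplicit false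

namespace Fermat.Agent.MR.Glue

open CuspForm CongruenceSubgroup ModularFormClass Fermat.Agent.S49

theorem hasIntegralBasis (N : ℕ) [NeZero N] : CuspForm.HasIntegralBasis N := by
  have h := Fermat.Agent.S23.result N
  rw [CuspForm.HasIntegralStructure] at h
  rw [CuspForm.HasIntegralBasis, eq_top_iff, ← h, Submodule.span_le]
  intro f hf
  have hf' : f ∈ CuspForm.intLattice N 2 := hf
  clear hf
  rw [CuspForm.intLattice] at hf'
  show f ∈ Submodule.span ℂ (qIntegralSet N)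
  induction hf' using Submodule.span_induction with
  | mem x hx =>
    refine Submodule.subset_span fun n => ?_
    obtain ⟨m, hm⟩ := hx n
    rw [hm]
    exact Subring.mem_bot.mpr ⟨m, rfl⟩
  | zero => exact Submodule.zero_mem _
  | add x y _ _ hx hy => exact Submodule.add_mem _ hx hy
  | smul a x _ hx =>
    rw [← Int.cast_smul_eq_zsmul ℂ]
    exact Submodule.smul_mem _ _ hx

/-- **Deligne--Serre.** -/
theorem exists_eigenform_of_ideal {N : ℕ} [NeZero N] {C : Type*} [CommRing C]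
    (Ψ : C →+* heckeAlgebra N 2 ∅) (hΨ : Function.Injective Ψ) (I : Ideal C) (hI : I ≠ ⊤) :
    ∃ (g : CuspForm (Gamma0 N) 2) (χ' : heckeAlgebra N 2 ∅ →+* integralClosure ℤ ℂ)
      (𝔪' : Ideal (integralClosure ℤ ℂ)),
      g.IsNormalizedEigenform ∧ 𝔪'.IsMaximal ∧ (∀ c ∈ I, χ' (Ψ c) ∈ 𝔪') ∧
      ∀ (ℓ : ℕ) (hℓ : ℓ.Prime) (hℓN : ¬ ℓ ∣ N),
        qCoeff g ℓ = ((χ' (heckeAlgebra.T hℓ hℓN (Set.notMem_empty ℓ)) : integralClosure ℤ ℂ) : ℂ) := by
  classical
  have h := hasIntegralBasis N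
  have hint : Algebra.IsIntegral ℤ (heckeAlgebra N 2 ∅) := heckeAlgebra_isIntegral h
  have hfd : FiniteDimensional ℂ (CuspForm (Gamma0 N) 2) := finiteDimensional_of_hasIntegralBasis h
  obtain ⟨𝔫, h𝔫, hle0⟩ := Ideal.exists_le_maximal I hI
  -- go up to the full Hecke algebra
  let _ : Algebra C (heckeAlgebra N 2 ∅) := Ψ.toAlgebra
  have hintC : Algebra.IsIntegral C (heckeAlgebra N 2 ∅) :=
    ⟨fun x => (Algebra.IsIntegral.isIntegral (R := ℤ) x).tower_top⟩
  have hkerC : RingHom.ker (algebraMap C (heckeAlgebra N 2 ∅)) ≤ 𝔫 := by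
    intro t ht
    rw [RingHom.mem_ker] at ht
    have : t = 0 := hΨ (by rw [map_zero]; exact ht)
    rw [this]
    exact 𝔫.zero_mem
  obtain ⟨𝔐, h𝔐, hcomapC⟩ := Ideal.exists_ideal_over_maximal_of_isIntegral 𝔫 hkerC
  have h𝔐p : 𝔐.IsPrime := h𝔐.isPrime
  obtain ⟨v, χ, hv0, hev, hker⟩ := exists_eigenvector_of_prime
    ((heckeAlgebra N 2 ∅).val : heckeAlgebra N 2 ∅ →+* Module.End ℂ (CuspForm (Gamma0 N) 2))
    Subtype.val_injective 𝔐
  obtain ⟨g, hg, hgχ⟩ := exists_normalized_of_eigenvector v hv0 χ hev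
  let χ' : heckeAlgebra N 2 ∅ →+* integralClosure ℤ ℂ :=
    χ.codRestrict (integralClosure ℤ ℂ) (fun t => map_isIntegral_int χ (hint.isIntegral t))
  have hχ' : ∀ t, ((χ' t : integralClosure ℤ ℂ) : ℂ) = χ t := fun _ => rfl
  let _ : Algebra (heckeAlgebra N 2 ∅) (integralClosure ℤ ℂ) := χ'.toAlgebra
  have hint' : Algebra.IsIntegral (heckeAlgebra N 2 ∅) (integralClosure ℤ ℂ) :=
    ⟨fun x => (Algebra.IsIntegral.isIntegral (R := ℤ) x).tower_top⟩
  have hker' : RingHom.ker (algebraMap (heckeAlgebra N 2 ∅) (integralClosure ℤ ℂ)) ≤ 𝔐 := by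
    intro t ht
    apply hker
    rw [RingHom.mem_ker] at ht ⊢
    have : χ' t = 0 := ht
    rw [← hχ', this]
    rfl
  obtain ⟨𝔪', h𝔪', hcomap⟩ := Ideal.exists_ideal_over_maximal_of_isIntegral 𝔐 hker'
  refine ⟨g, χ', 𝔪', hg, h𝔪', ?_, ?_⟩
  · intro c hc
    have h1 : c ∈ Ideal.comap (algebraMap C (heckeAlgebra N 2 ∅)) 𝔐 := by
      rw [hcomapC]; exact hle0 hc
    have h2 : Ψ c ∈ 𝔐 := h1
    have h3 : Ψ c ∈ Ideal.comap (algebraMap (heckeAlgebra N 2 ∅) (integralClosure ℤ ℂ)) 𝔪' := by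
      rw [hcomap]; exact h2
    exact h3
  · intro ℓ hℓ hℓN
    rw [hχ', hgχ ℓ hℓ hℓN]

end Fermat.Agent.MR.Glue
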