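import Fermat.Agent.MR.Glue.Defs
import Fermat.Agent.MR.Glue.Out

/-!
# MR / Glue / Old : a system of eigenvalues occurring in `V_p(F(n))` comes from an eigenform of level `n`
-/

set_option autoImplicit false

namespace Fermat.Agent.MR.Glue

open AlgebraicCurve ModularCurve Fermat.Agent.S24 Fermat.Agent.GAL Fermat.Agent.GAL.Tors
open CuspForm CongruenceSubgroup ModularFormClass

variable {n : ℕ} [NeZero n]

/-- the generators `(Dt.T ℓ, T_ℓ)` of the ring of Hecke correspondences. -/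
def corrGens (Dt : TorsDatum n) : Set (Matrix (Fin Dt.r) (Fin Dt.r) ℤ × heckeAlgebra n 2 ∅) :=
  {x | ∃ (ℓ : ℕ) (hℓ : ℓ.Prime) (hℓN : ¬ ℓ ∣ n),
    x = (Dt.T ℓ, heckeAlgebra.T hℓ hℓN (Set.notMem_empty ℓ))}

theorem corrGens_comm (Dt : TorsDatum n) :
    ∀ x ∈ corrGens Dt, ∀ y ∈ corrGens Dt, x * y = y * x := by
  rintro _ ⟨ℓ, hℓ, hℓN, rfl⟩ _ ⟨ℓ', hℓ', hℓN', rfl⟩
  exact Prod.ext (Dt.T_comm ℓ ℓ') (mul_comm _ _)

theorem corr_per (Dt : TorsDatum n) (x : Matrix (Fin Dt.r) (Fin Dt.r) ℤ × heckeAlgebra n 2 ∅)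
    (hx : x ∈ Subring.closure (corrGens Dt)) (f : CuspForm (Gamma0 n) 2) :
    Dt.per (x.2.1 f) = (x.1.map (Int.castRingHom ℂ)).mulVec (Dt.per f) := by
  induction hx using Subring.closure_induction generalizing f with
  | mem x hx =>
    obtain ⟨ℓ, hℓ, hℓN, rfl⟩ := hx
    exact Dt.per_T ℓ hℓ hℓN f
  | zero => simp
  | one => simp
  | add x y _ _ hx hy =>
    have e1 : ((x + y).2.1 : Module.End ℂ _) f = x.2.1 f + y.2.1 f := rfl
    have e2 : (x + y).1.map (Int.castRingHom ℂ)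
        = x.1.map (Int.castRingHom ℂ) + y.1.map (Int.castRingHom ℂ) := by
      rw [Prod.fst_add, Matrix.map_add _ (fun a b => map_add _ a b)]
    rw [e1, e2, map_add, hx, hy, Matrix.add_mulVec]
  | neg x _ hx =>
    have e1 : ((-x).2.1 : Module.End ℂ _) f = - x.2.1 f := rfl
    have e2 : (-x).1.map (Int.castRingHom ℂ) = - x.1.map (Int.castRingHom ℂ) := by
      rw [Prod.fst_neg, Matrix.map_neg _ (fun a => map_neg _ a)]
    rw [e1, e2, map_neg, hx, Matrix.neg_mulVec]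
  | mul x y _ _ hx hy =>
    have e1 : ((x * y).2.1 : Module.End ℂ _) f = x.2.1 (y.2.1 f) := rfl
    have e2 : (x * y).1.map (Int.castRingHom ℂ)
        = x.1.map (Int.castRingHom ℂ) * y.1.map (Int.castRingHom ℂ) := by
      rw [Prod.fst_mul, Matrix.map_mul]
    rw [e1, e2, hx, hy, Matrix.mulVec_mulVec]

/-- The commutative ring of Hecke correspondences; BOTH projections are injective. -/
theorem exists_corr (Dt : TorsDatum n) :
    ∃ (C : Type) (_ : CommRing C) (Φ : C →+* Matrix (Fin Dt.r) (Fin Dt.r) ℤ)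
      (Ψ : C →+* heckeAlgebra n 2 ∅),
      Function.Injective Ψ ∧
      (∀ (ℓ : ℕ) (hℓ : ℓ.Prime) (hℓN : ¬ ℓ ∣ n),
        ∃ x : C, Φ x = Dt.T ℓ ∧ Ψ x = heckeAlgebra.T hℓ hℓN (Set.notMem_empty ℓ)) := by
  refine ⟨Subring.closure (corrGens Dt), Subring.closureCommRingOfComm (corrGens_comm Dt),
    (RingHom.fst _ _).comp (Subring.subtype _), (RingHom.snd _ _).comp (Subring.subtype _),
    ?_, ?_⟩
  · rintro ⟨x, hx⟩ ⟨y, hy⟩ h
    have h1 : x.2 = y.2 := h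
    apply Subtype.ext
    refine Prod.ext ?_ h1
    rw [← sub_eq_zero]
    apply Dt.per_faithful
    intro f
    have e2 : (x.1 - y.1).map (Int.castRingHom ℂ)
        = x.1.map (Int.castRingHom ℂ) - y.1.map (Int.castRingHom ℂ) :=
      Matrix.map_sub _ (fun a b => map_sub _ a b) _ _
    rw [e2, Matrix.sub_mulVec, ← corr_per Dt x hx f, ← corr_per Dt y hy f, h1, sub_self]
  · intro ℓ hℓ hℓN
    exact ⟨⟨(Dt.T ℓ, heckeAlgebra.T hℓ hℓN (Set.notMem_empty ℓ)),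
      Subring.subset_closure ⟨ℓ, hℓ, hℓN, rfl⟩⟩, rfl, rfl⟩

/-- **Matrix form.** -/
theorem exists_eigenform_of_eigenvector (Dt : TorsDatum n) {p : ℕ} (L : Set ℕ) (a : ℕ → ℤ)
    (y : Fin Dt.r → ZMod p) (hy0 : y ≠ 0)
    (hy : ∀ ℓ ∈ L, ((Dt.T ℓ).map (Int.castRingHom (ZMod p))).mulVec y = (a ℓ : ZMod p) • y) :
    ∃ (g : CuspForm (Gamma0 n) 2) (𝔪' : Ideal (integralClosure ℤ ℂ)),
      g.IsNormalizedEigenform ∧ 𝔪'.IsMaximal ∧ (p : integralClosure ℤ ℂ) ∈ 𝔪' ∧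
      ∀ ℓ : ℕ, ℓ.Prime → ¬ ℓ ∣ n → ℓ ∈ L →
        ∃ b : integralClosure ℤ ℂ, (b : ℂ) = qCoeff g ℓ ∧
          b - ((a ℓ : ℤ) : integralClosure ℤ ℂ) ∈ 𝔪' := by
  obtain ⟨C, _, Φ, Ψ, hΨ, hgen⟩ := exists_corr Dt
  let I : Ideal C :=
    { carrier := {c | ((Φ c).map (Int.castRingHom (ZMod p))).mulVec y = 0}
      add_mem' := by
        intro c d hc hd
        have hc' : ((Φ c).map (Int.castRingHom (ZMod p))).mulVec y = 0 := hc
        have hd' : ((Φ d).map (Int.castRingHom (ZMod p))).mulVec y = 0 := hd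
        show ((Φ (c + d)).map (Int.castRingHom (ZMod p))).mulVec y = 0
        rw [map_add, Matrix.map_add _ (fun a b => map_add _ a b), Matrix.add_mulVec, hc', hd',
          add_zero]
      zero_mem' := by
        show ((Φ 0).map (Int.castRingHom (ZMod p))).mulVec y = 0
        rw [map_zero, Matrix.map_zero _ (map_zero _), Matrix.zero_mulVec]
      smul_mem' := by
        intro c d hd
        have hd' : ((Φ d).map (Int.castRingHom (ZMod p))).mulVec y = 0 := hd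
        show ((Φ (c • d)).map (Int.castRingHom (ZMod p))).mulVec y = 0
        rw [smul_eq_mul, map_mul, Matrix.map_mul, ← Matrix.mulVec_mulVec, hd', Matrix.mulVec_zero] }
  have hmem : ∀ c, c ∈ I ↔ ((Φ c).map (Int.castRingHom (ZMod p))).mulVec y = 0 := fun _ => Iff.rfl
  have hI : I ≠ ⊤ := by
    intro h
    have h1 : (1 : C) ∈ I := by rw [h]; trivial
    rw [hmem, map_one, Matrix.map_one _ (map_zero _) (map_one _), Matrix.one_mulVec] at h1
    exact hy0 h1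
  have hint : ∀ m : ℤ, ((Φ (m : C)).map (Int.castRingHom (ZMod p))).mulVec y = (m : ZMod p) • y := by
    intro m
    have : (Φ (m : C)).map (Int.castRingHom (ZMod p)) = (m : ZMod p) • 1 := by
      rw [map_intCast]
      ext i j
      by_cases hij : i = j
      · subst hij
        simp [Matrix.intCast_apply]
      · simp [hij, Matrix.intCast_apply]
    rw [this, Matrix.smul_mulVec, Matrix.one_mulVec]
  obtain ⟨g, χ', 𝔪', hg, h𝔪', hI', hq⟩ := exists_eigenform_of_ideal Ψ hΨ I hI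
  refine ⟨g, 𝔪', hg, h𝔪', ?_, ?_⟩
  · have h1 : ((p : ℤ) : C) ∈ I := by
      rw [hmem, hint]
      simp
    have h2 := hI' _ h1
    rw [map_intCast, map_intCast] at h2
    exact_mod_cast h2
  · intro ℓ hℓ hℓn hℓL
    obtain ⟨c, hc1, hc2⟩ := hgen ℓ hℓ hℓn
    refine ⟨χ' (heckeAlgebra.T hℓ hℓn (Set.notMem_empty ℓ)), (hq ℓ hℓ hℓn).symm, ?_⟩
    have h1 : c - ((a ℓ : ℤ) : C) ∈ I := by
      rw [hmem, map_sub, Matrix.map_sub _ (fun a b => map_sub _ a b), Matrix.sub_mulVec, hint, hc1,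
        hy ℓ hℓL, sub_self]
    have h2 := hI' _ h1
    rw [map_sub, map_sub, map_intCast, map_intCast, hc2] at h2
    exact h2

/-- **(OLD)/(OUT-KV).** A system of eigenvalues occurring in `V_p(F(n))` comes from an eigenform of level `n`. -/
theorem exists_eigenform_of_eigenKV {p : ℕ} [NeZero p] (S : Finset ℕ) (a : ℕ → ℤ)
    (h : eigenKV n p S a ≠ ⊥) :
    ∃ (g : CuspForm (Gamma0 n) 2) (𝔪' : Ideal (integralClosure ℤ ℂ)),
      g.IsNormalizedEigenform ∧ 𝔪'.IsMaximal ∧ (p : integralClosure ℤ ℂ) ∈ 𝔪' ∧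
      ∀ ℓ : ℕ, ℓ.Prime → ¬ ℓ ∣ n → ℓ ∉ S →
        ∃ b : integralClosure ℤ ℂ, (b : ℂ) = qCoeff g ℓ ∧
          b - ((a ℓ : ℤ) : integralClosure ℤ ℂ) ∈ 𝔪' := by
  obtain ⟨Dt⟩ := nonempty_torsDatum' n
  obtain ⟨⟨x, hx⟩, hx0⟩ := AddSubgroup.ne_bot_iff_exists_ne_zero.mp h
  have hx0' : x ≠ 0 := fun h0 => hx0 (Subtype.ext h0)
  obtain ⟨y, rfl⟩ := (Dt.e p).surjective x
  have hy0 : y ≠ 0 := by
    rintro rfl
    exact hx0' (map_zero _)
  obtain ⟨g, 𝔪', h1, h2, h3, h4⟩ := exists_eigenform_of_eigenvector Dt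
    {ℓ : ℕ | ℓ.Prime ∧ ¬ ℓ ∣ n ∧ ℓ ∉ S} a y hy0 (by
      rintro ℓ ⟨hℓ, hℓn, hℓS⟩
      have : NeZero ℓ := ⟨hℓ.ne_zero⟩
      apply (Dt.e p).injective
      rw [Dt.e_T p ℓ hℓ hℓn, hx ℓ hℓ hℓn hℓS, Int.cast_smul_eq_zsmul, map_zsmul])
  exact ⟨g, 𝔪', h1, h2, h3, fun ℓ hℓ hℓn hℓS => h4 ℓ hℓ hℓn ⟨hℓ, hℓn, hℓS⟩⟩

end Fermat.Agent.MR.Glue
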