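import Fermat.Agent.MR.Glue.In
import Fermat.Agent.MR.Glue.Old
import Fermat.Agent.MR.Glue.Scale

/-!
# MR / Glue / Front : steps (1), (2), (3) of the plan (report 321)

`front` : if `ρ̄_{E,p}` is modular of level `M' p` then either it is modular of level `M'`, or there is a `NewCopy`.
The Boston--Lenstra--Ribet step is consumed through the two `Prop`s `BLRCopy`, `BLRNonEis`.
-/

set_option autoImplicit false

namespace Fermat.Agent.MR.Glue

open AlgebraicCurve ModularCurve Fermat.Agent.S24 Fermat.Agent.GAL Fermat.Agent.DR Fermat.Agent.MR.E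

/-- **Contract of BLR, part 1**: every nonzero `G_ℚ`-stable subgroup of the eigenspace contains a copy of `E[p]`. -/
def BLRCopy (P : FreyPackage) : Prop :=
  ∀ (n : ℕ) [NeZero n] (W : WeierstrassCurve ℤ), W.IsIntegralModelOf P.freyCurve →
    ∀ (S : Finset ℕ) (U : AddSubgroup (KV Kbar (FN n) P.p)), U ≠ ⊥ →
      U ≤ eigenKV n P.p S W.apOfModel → (∀ (σ : GQ), ∀ x ∈ U, σ • x ∈ U) →
      ∃ φ : Ep P →+ KV Kbar (FN n) P.p, Function.Injective φ ∧
        (∀ (σ : GQ) (x : Ep P), φ (σ • x) = σ • φ x) ∧ ∀ x, φ x ∈ U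

/-- **Contract of BLR, part 2**: a non-Eisenstein prime outside any finite set. -/
def BLRNonEis (P : FreyPackage) : Prop :=
  ∀ W : WeierstrassCurve ℤ, W.IsIntegralModelOf P.freyCurve → ∀ S : Finset ℕ,
    ∃ ℓ : ℕ, ℓ.Prime ∧ ℓ ∉ S ∧ ¬ (P.p : ℤ) ∣ W.apOfModel ℓ - ℓ - 1

theorem eigenKV_galois {n p : ℕ} [NeZero n] (S : Finset ℕ) (a : ℕ → ℤ) (σ : GQ)
    (x : KV Kbar (FN n) p) (hx : x ∈ eigenKV n p S a) : σ • x ∈ eigenKV n p S a := by
  intro ℓ _ h1 h2 h3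
  rw [heckeT_galois_smul, hx ℓ h1 h2 h3, smul_comm]

/-- the `ε`-eigenspace of `w_q` in the eigenspace. -/
def eigenW (M' q p : ℕ) [NeZero M'] [NeZero q] (S : Finset ℕ) (a : ℕ → ℤ) (ε : ℤ) :
    AddSubgroup (KV Kbar (FN (M' * q)) p) where
  carrier := {x | x ∈ eigenKV (M' * q) p S a ∧ wKV M' q p x = ε • x}
  add_mem' := by
    rintro x y ⟨hx, hx'⟩ ⟨hy, hy'⟩
    exact ⟨AddSubgroup.add_mem _ hx hy, by rw [map_add, hx', hy', smul_add]⟩
  zero_mem' := ⟨AddSubgroup.zero_mem _, by rw [map_zero, smul_zero]⟩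
  neg_mem' := by
    rintro x ⟨hx, hx'⟩
    exact ⟨AddSubgroup.neg_mem _ hx, by rw [map_neg, hx', smul_neg]⟩

theorem exists_eigenW_ne_bot {M' q p : ℕ} [NeZero M'] [NeZero q] (hq : q.Prime) (hqM : ¬ q ∣ M')
    (S : Finset ℕ) (a : ℕ → ℤ) (h : eigenKV (M' * q) p S a ≠ ⊥) :
    ∃ ε : ℤ, (ε = 1 ∨ ε = -1) ∧ eigenW M' q p S a ε ≠ ⊥ := by
  have hdeg := Hecke.kvDegen (M := M') (q := q) hq hqM
  obtain ⟨⟨x, hx⟩, hx0⟩ := AddSubgroup.ne_bot_iff_exists_ne_zero.mp h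
  have hx0' : x ≠ 0 := fun h0 => hx0 (Subtype.ext h0)
  have hwx : wKV M' q p x ∈ eigenKV (M' * q) p S a := by
    intro ℓ _ h1 h2 h3
    rw [← hdeg.w_hecke p ℓ h1 h2, hx ℓ h1 h2 h3, map_zsmul]
  by_cases h1 : x + wKV M' q p x = 0
  · refine ⟨-1, Or.inr rfl, fun hbot => hx0' ?_⟩
    have : x ∈ eigenW M' q p S a (-1) := by
      refine ⟨hx, ?_⟩
      rw [neg_smul, one_smul]
      exact (neg_eq_of_add_eq_zero_right h1).symm
    rwa [hbot, AddSubgroup.mem_bot] at this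
  · refine ⟨1, Or.inl rfl, fun hbot => h1 ?_⟩
    have : x + wKV M' q p x ∈ eigenW M' q p S a 1 := by
      refine ⟨AddSubgroup.add_mem _ hx hwx, ?_⟩
      rw [map_add, wKV_wKV, one_smul, add_comm]
    rwa [hbot, AddSubgroup.mem_bot] at this

/-- **Steps (1), (2), (3).** -/
theorem front (P : FreyPackage) [NeZero P.p] (hB1 : BLRCopy P) (hB2 : BLRNonEis P) {M' : ℕ}
    [NeZero M'] (hpM' : ¬ P.p ∣ M') (hmod : P.ModularRepOfLevel (M' * P.p)) :
    P.ModularRepOfLevel M' ∨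
      ∃ (W : WeierstrassCurve ℤ) (S : Finset ℕ), W.IsIntegralModelOf P.freyCurve ∧
        Nonempty (NewCopy P M' W S) := by
  have hdeg := Hecke.kvDegen (M := M') (q := P.p) P.pp hpM'
  obtain ⟨W, S, hW, hne⟩ := exists_eigenKV_of_modularRep P hmod
  -- enlarge `S` so that it contains `p`
  have hne' : eigenKV (M' * P.p) P.p (insert P.p S) W.apOfModel ≠ ⊥ := by
    intro hbot
    apply hne
    rw [eq_bot_iff, ← hbot]
    exact eigenKV_mono (Finset.subset_insert _ _) _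
  obtain ⟨ε, hε, hU⟩ := exists_eigenW_ne_bot P.pp hpM' (insert P.p S) W.apOfModel hne'
  obtain ⟨φ, hinj, hgal, hφU⟩ := hB1 (M' * P.p) W hW (insert P.p S)
    (eigenW M' P.p P.p (insert P.p S) W.apOfModel ε) hU (fun x hx => hx.1) (by
      rintro σ x ⟨hx, hx'⟩
      exact ⟨eigenKV_galois _ _ σ x hx, by rw [hdeg.w_galois, hx', smul_comm]⟩)
  by_cases hnew : ∀ x : Ep P, alphaKV M' P.p P.p (φ x) = 0
  · right
    obtain ⟨ℓ₀, h1, h2, h3⟩ := hB2 W hW (insert P.p S)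
    exact ⟨W, insert P.p S, hW, ⟨{
      φ := φ
      inj := hinj
      galois := hgal
      hecke := fun x => (hφU x).1
      ε := ε
      hε := hε
      w := fun x => (hφU x).2
      new := hnew
      ℓ₀ := ℓ₀
      ℓ₀_prime := h1
      ℓ₀_notMem := h2
      ℓ₀_nonEis := h3 }⟩⟩
  · left
    obtain ⟨x, hx⟩ := not_forall.mp hnew
    have hmem : alphaKV M' P.p P.p (φ x) ∈ eigenKV M' P.p (insert P.p S) W.apOfModel := by
      intro ℓ _ h1 h2 h3
      have h4 : ¬ ℓ ∣ M' * P.p := by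
        intro h5
        rcases (Nat.Prime.dvd_mul h1).mp h5 with h5 | h5
        · exact h2 h5
        · exact h3 (by rw [(Nat.prime_dvd_prime_iff_eq h1 P.pp).mp h5]; exact Finset.mem_insert_self _ _)
      rw [← hdeg.alpha_hecke P.p ℓ h1 h4, (hφU x).1 ℓ h1 h4 h3, map_zsmul]
    have hne2 : eigenKV M' P.p (insert P.p S) W.apOfModel ≠ ⊥ := by
      intro hbot
      rw [hbot, AddSubgroup.mem_bot] at hmem
      exact hx hmem
    obtain ⟨g, 𝔪', hg, h𝔪', hp, hcong⟩ := exists_eigenform_of_eigenKV _ _ hne2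
    exact modularRep_of_congr P W hW _ g 𝔪' hg h𝔪' hp hcong

end Fermat.Agent.MR.Glue
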