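import Fermat.Agent.MR.Interface
import Fermat.Agent.MR.Glue.Form
import Fermat.Agent.MR.Glue.Front

/-!
# MR / Glue / Contract : `GlueOutStatement` and `GlueInStatement` of `MR/Interface.lean`
-/

set_option autoImplicit false

namespace Fermat.Agent.MR.Glue

open AlgebraicCurve ModularCurve Fermat.Agent.S24 Fermat.Agent.GAL Fermat.Agent.DR Fermat.Agent.MR.E
open WeierstrassCurve WeierstrassCurve.Affine WeierstrassCurve.Affine.Point

/-- an element of `A` with zero residue is a nonunit (as an element of `ℚ̄`). -/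
theorem mem_nonunits_of_residue_eq_zero (A : ValuationSubring Kbar) (x : ↥A)
    (hx : IsLocalRing.residue ↥A x = 0) : (x : Kbar) ∈ A.nonunits := by
  rw [IsLocalRing.residue_eq_zero_iff] at hx
  exact (A.mem_nonunits_iff_exists_mem_maximalIdeal).mpr ⟨x.2, hx⟩

theorem residue_ne_zero_of_notMem_nonunits (A : ValuationSubring Kbar) (x : ↥A)
    (hx : IsLocalRing.residue ↥A x ≠ 0) : (x : Kbar) ∉ A.nonunits := by
  intro h
  apply hx
  rw [IsLocalRing.residue_eq_zero_iff]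
  obtain ⟨hx', h2⟩ := (A.mem_nonunits_iff_exists_mem_maximalIdeal).mp h
  exact h2

/-- **(GLUE-out).** -/
theorem glueOut : GlueOutStatement := by
  intro P M' _ W hW hpM' A hA b hb0 hbneg ⟨G, c, hGc, hbc⟩ hHQ
  have hΔ : W.Δ ≠ 0 := Lib.Ell.model_disc_ne_zero P.freyCurve (S13.frey_Δ_ne_zero P) W hW
  refine modularRep_of_form P W hW (insert P.p W.Δ.natAbs.primeFactors) A hA iota G
    (fun m => (c m : Kbar)) (fun m => (c m).2) hGc ?_ ?_
  · -- some coefficient is a unit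
    obtain ⟨n, hn⟩ : ∃ n : ℤ, b.coeff n ≠ 0 := by
      by_contra hcon
      apply hb0
      ext n
      by_contra h2
      exact hcon ⟨n, h2⟩
    have hn0 : 0 ≤ n := by
      by_contra h
      exact hn (hbneg n (not_le.mp h))
    obtain ⟨m, rfl⟩ := Int.eq_ofNat_of_zero_le hn0
    refine ⟨m, residue_ne_zero_of_notMem_nonunits A (c m) ?_⟩
    rw [← hbc]
    exact hn
  · intro ℓ hℓ hℓM' hℓS m
    rw [Finset.mem_insert, not_or] at hℓS
    have hgood : W.IsGoodPrimeFor ℓ := by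
      intro hbad
      apply hℓS.2
      rw [Nat.mem_primeFactors]
      exact ⟨hℓ, Int.natCast_dvd.mp hbad, Int.natAbs_ne_zero.mpr hΔ⟩
    have hℓN : ¬ ℓ ∣ M' * P.p := by
      intro h5
      rcases (Nat.Prime.dvd_mul hℓ).mp h5 with h5 | h5
      · exact hℓM' h5
      · exact hℓS.1 ((Nat.prime_dvd_prime_iff_eq hℓ P.pp).mp h5)
    have h1 := hHQ ℓ hℓ hgood hℓN (m : ℤ)
    have key : IsLocalRing.residue ↥A (c (ℓ * m) + (ℓ : ↥A) * (if ℓ ∣ m then c (m / ℓ) else 0)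
        - ((W.apOfModel ℓ : ℤ) : ↥A) * c m) = 0 := by
      rw [map_sub, map_add, map_mul, map_mul, map_natCast, map_intCast, ← hbc, ← hbc, sub_eq_zero,
        ← h1]
      have e1 : ((ℓ * m : ℕ) : ℤ) = (m : ℤ) * ℓ := by push_cast; ring
      rw [e1]
      congr 1
      by_cases hd : ℓ ∣ m
      · rw [if_pos hd, if_pos (Int.natCast_dvd_natCast.mpr hd), ← hbc]
        congr 2
      · rw [if_neg hd, if_neg (fun h => hd (Int.natCast_dvd_natCast.mp h)), _root_.map_zero, mul_zero]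
    have h2 := mem_nonunits_of_residue_eq_zero A _ key
    convert h2 using 1
    push_cast
    split_ifs <;> simp

/-- making the primes of a finite set bad. -/
theorem exists_scale (W : WeierstrassCurve ℤ) (S : Finset ℕ) :
    ∃ c : ℤ, c ≠ 0 ∧ ∀ ℓ : ℕ, ℓ.Prime → (scale W c).IsGoodPrimeFor ℓ →
      ℓ ∉ S ∧ (scale W c).apOfModel ℓ = W.apOfModel ℓ := by
  classical
  refine ⟨∏ ℓ ∈ S.filter Nat.Prime, (ℓ : ℤ), ?_, ?_⟩
  · rw [Finset.prod_ne_zero_iff]
    intro ℓ hℓ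
    exact_mod_cast (Finset.mem_filter.mp hℓ).2.ne_zero
  · intro ℓ hℓ hgood
    have h1 : ¬ (ℓ : ℤ) ∣ ∏ ℓ ∈ S.filter Nat.Prime, (ℓ : ℤ) := by
      intro h2
      apply hgood
      rw [scale_Δ]
      exact Dvd.dvd.mul_right (dvd_pow h2 (by norm_num)) _
    refine ⟨?_, scale_apOfModel W _ hℓ h1⟩
    intro h3
    apply h1
    exact Finset.dvd_prod_of_mem (fun ℓ : ℕ => (ℓ : ℤ)) (Finset.mem_filter.mpr ⟨h3, hℓ⟩)

/-- **(GLUE-in)**, from BLR. -/
theorem glueIn_of
    (hB1 : ∀ P : FreyPackage,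
      GaloisRepIsIrreducible (K := AlgebraicClosure ℚ) ℚ P.freyCurve P.p → BLRCopy P)
    (hB2 : ∀ P : FreyPackage,
      GaloisRepIsIrreducible (K := AlgebraicClosure ℚ) ℚ P.freyCurve P.p → BLRNonEis P) :
    GlueInStatement := by
  intro P M' _ _ hpM' _ hirr hmod
  rcases front P (hB1 P hirr) (hB2 P hirr) hpM' hmod with h | ⟨W, S, hW, ⟨C⟩⟩
  · exact Or.inl h
  · right
    obtain ⟨c, hc0, hc⟩ := exists_scale W S
    have hW' := scale_isIntegralModelOf hc0 hW
    have hΔ : (scale W c).Δ ≠ 0 :=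
      Lib.Ell.model_disc_ne_zero P.freyCurve (S13.frey_Δ_ne_zero P) _ hW'
    refine ⟨scale W c, C.φ, hW', C.inj, C.galois, ?_, C.new, ⟨C.ε, C.w⟩, ?_⟩
    · intro ℓ _ hℓ hgood hℓN x
      obtain ⟨h1, h2⟩ := hc ℓ hℓ hgood
      rw [h2]
      exact C.hecke x ℓ hℓ hℓN h1
    · obtain ⟨ℓ, hℓ, hℓS, hne⟩ := hB2 P hirr (scale W c) hW'
        ((scale W c).Δ.natAbs.primeFactors ∪ (4 * M' * P.p).primeFactors)
      rw [Finset.mem_union, not_or] at hℓS
      refine ⟨ℓ, hℓ, ?_, ?_, ?_⟩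
      · intro hbad
        apply hℓS.1
        rw [Nat.mem_primeFactors]
        exact ⟨hℓ, Int.natCast_dvd.mp hbad, Int.natAbs_ne_zero.mpr hΔ⟩
      · intro hd
        apply hℓS.2
        rw [Nat.mem_primeFactors]
        exact ⟨hℓ, hd, mul_ne_zero (mul_ne_zero (by norm_num) (NeZero.ne M')) (NeZero.ne P.p)⟩
      · rwa [← sub_sub]

end Fermat.Agent.MR.Glue
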