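import Fermat.Agent.GAL.Tors.HeckeInput
import Fermat.Agent.DR.Gal.Level
import Fermat.Agent.DR.Hecke.Degen
import Fermat.Agent.MR.E.Base

/-!
# MR / Glue / Defs : the objects exchanged between GLUE and the other blocks of MR (= S44)

* `eigenKV n p S a` : the joint eigenspace `{x ∈ V_p(F(n)) : T_ℓ x = a_ℓ x, ℓ ∤ n, ℓ ∉ S}`;
* `NewCopy P M' W S` : a `G_ℚ`-equivariant copy of `E[p]` inside the `p`-new part of `eigenKV (M' p) p S a(W)`, contained in an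
  eigenspace of `w_p`, together with a non-Eisenstein prime.
-/

set_option autoImplicit false

namespace Fermat.Agent.MR.Glue

open AlgebraicCurve ModularCurve Fermat.Agent.S24 Fermat.Agent.GAL Fermat.Agent.DR Fermat.Agent.MR.E

/-- The joint eigenspace of the `T_ℓ` (`ℓ ∤ n`, `ℓ ∉ S`) in `V_p(F(n))`, with eigenvalues `a ℓ`. -/
def eigenKV (n p : ℕ) [NeZero n] (S : Finset ℕ) (a : ℕ → ℤ) : AddSubgroup (KV Kbar (FN n) p) where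
  carrier := {x | ∀ (ℓ : ℕ) [NeZero ℓ], ℓ.Prime → ¬ ℓ ∣ n → ℓ ∉ S → heckeT Kbar n ℓ p x = a ℓ • x}
  add_mem' := by
    intro x y hx hy ℓ _ h1 h2 h3
    rw [map_add, hx ℓ h1 h2 h3, hy ℓ h1 h2 h3, smul_add]
  zero_mem' := by
    intro ℓ _ _ _ _
    rw [map_zero, smul_zero]
  neg_mem' := by
    intro x hx ℓ _ h1 h2 h3
    rw [map_neg, hx ℓ h1 h2 h3, smul_neg]

theorem mem_eigenKV {n p : ℕ} [NeZero n] {S : Finset ℕ} {a : ℕ → ℤ} {x : KV Kbar (FN n) p} :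
    x ∈ eigenKV n p S a ↔
      ∀ (ℓ : ℕ) [NeZero ℓ], ℓ.Prime → ¬ ℓ ∣ n → ℓ ∉ S → heckeT Kbar n ℓ p x = a ℓ • x := Iff.rfl

theorem eigenKV_mono {n p : ℕ} [NeZero n] {S S' : Finset ℕ} (h : S ⊆ S') (a : ℕ → ℤ) :
    eigenKV n p S a ≤ eigenKV n p S' a :=
  fun _ hx ℓ _ h1 h2 h3 => hx ℓ h1 h2 (fun h4 => h3 (h h4))

/-- **The output of GLUE (1)+(2)+(3)** in the `p`-new case. -/
structure NewCopy (P : FreyPackage) (M' : ℕ) [NeZero M'] [NeZero P.p] (W : WeierstrassCurve ℤ)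
    (S : Finset ℕ) where
  φ : Ep P →+ KV Kbar (FN (M' * P.p)) P.p
  inj : Function.Injective φ
  galois : ∀ (σ : GQ) (x : Ep P), φ (σ • x) = σ • φ x
  hecke : ∀ x : Ep P, φ x ∈ eigenKV (M' * P.p) P.p S W.apOfModel
  ε : ℤ
  hε : ε = 1 ∨ ε = -1
  w : ∀ x : Ep P, wKV M' P.p P.p (φ x) = ε • φ x
  new : ∀ x : Ep P, alphaKV M' P.p P.p (φ x) = 0
  ℓ₀ : ℕ
  ℓ₀_prime : ℓ₀.Prime
  ℓ₀_notMem : ℓ₀ ∉ S
  ℓ₀_nonEis : ¬ (P.p : ℤ) ∣ W.apOfModel ℓ₀ - ℓ₀ - 1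

end Fermat.Agent.MR.Glue
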