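import Fermat.Agent.MR.Glue.Defs
import Fermat.Agent.GAL.ModP.Eigen
import Fermat.Agent.Lib.QuadRep.EigenRed
import Fermat.Agent.Lib.Ell.Main

/-!
# MR / Glue / In : the system of eigenvalues of `ρ̄_{E,p}` occurs in `V_p(F(N))` if `ρ̄` is modular of level `N`
-/

set_option autoImplicit false

namespace Fermat.Agent.MR.Glue

open AlgebraicCurve ModularCurve Fermat.Agent.S24 Fermat.Agent.GAL Fermat.Agent.GAL.Tors
open CuspForm CongruenceSubgroup ModularFormClass Fermat.Agent.Lib.QuadRep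

/-- **Leaf IN2 (descent of the field of definition of an eigenvector).**
PROOF. `k` is a `ZMod p`-algebra (`ZMod.algebra k p`).  Pick `j` with `x j ≠ 0` and a `ZMod p`-linear form `λ : k → ZMod p` with
`λ (x j) ≠ 0` (`Module.forall_dual_apply_eq_zero_iff (ZMod p) (x j)`, by contradiction).  `y := fun i => λ (x i)`.  Apply `λ` to the `i`-th
coordinate of `h`: `∑ j, (T i j : k) * x j`, where `((m : ℤ) : k) * z = (m : ZMod p) • z` (`Algebra.smul_def`, `map_intCast`), `map_sum`,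
`map_smul`. -/
theorem descend_eigenvector {p : ℕ} [Fact p.Prime] {k : Type*} [Field k] [CharP k p] {r : ℕ}
    {ι : Type*} (T : ι → Matrix (Fin r) (Fin r) ℤ) (a : ι → ℤ) (x : Fin r → k) (hx : x ≠ 0)
    (h : ∀ i, ((T i).map (Int.castRingHom k)).mulVec x = (a i : k) • x) :
    ∃ y : Fin r → ZMod p, y ≠ 0 ∧
      ∀ i, ((T i).map (Int.castRingHom (ZMod p))).mulVec y = (a i : ZMod p) • y := by
  let _ : Algebra (ZMod p) k := ZMod.algebra k p
  obtain ⟨j, hj⟩ : ∃ j, x j ≠ 0 := by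
    by_contra hcon
    apply hx
    funext j
    by_contra hj
    exact hcon ⟨j, hj⟩
  obtain ⟨lam, hlam⟩ : ∃ lam : Module.Dual (ZMod p) k, lam (x j) ≠ 0 := by
    by_contra hcon
    apply hj
    rw [← Module.forall_dual_apply_eq_zero_iff (ZMod p) (x j)]
    intro lam
    by_contra hl
    exact hcon ⟨lam, hl⟩
  have hcast : ∀ (m : ℤ) (z : k), lam ((m : k) * z) = (m : ZMod p) * lam z := by
    intro m z
    have e : (m : k) * z = (m : ZMod p) • z := by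
      rw [Algebra.smul_def, map_intCast]
    rw [e, map_smul, smul_eq_mul]
  refine ⟨fun i => lam (x i), fun h0 => hlam (congrFun h0 j), fun i => ?_⟩
  funext s
  have h1 := congrArg lam (congrFun (h i) s)
  rw [Pi.smul_apply, smul_eq_mul, hcast, Matrix.mulVec, dotProduct, map_sum] at h1
  rw [Pi.smul_apply, smul_eq_mul, ← h1, Matrix.mulVec, dotProduct]
  refine Finset.sum_congr rfl fun u _ => ?_
  rw [Matrix.map_apply, Matrix.map_apply, Int.coe_castRingHom, Int.coe_castRingHom, hcast]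

/-- **Leaf IN1 (matrix form).**
PROOF.  Copy `GAL/ModP/Datum.lean` (`per_eigen`, `per_ne_zero`, `eigenK_ne_bot`) with `Dt : TorsDatum n` in place of `D : ESDatumAt`:
`k := ℤ̄ ⧸ 𝔪` (a field: `Ideal.Quotient.field`), `φ := Ideal.Quotient.mk 𝔪` (surjective), `CharP k p` (from `hp`:
`(p : k) = 0`, `CharP.ofPrime`-style: `ringChar`/`CharP.of_prime_natCast_eq_zero`-like lemma, or `(CharP.exists k)` + `Nat.Prime` dvd argument).
`exists_eigenvector_of_reduction (R := ℤ̄) (C := ℂ) (ι := L) Subtype.val_injective φ hφ (fun i => (Dt.T i).map (Int.castRingHom ℤ̄)) _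
(fun i => b i) (Dt.per f) _ _` where `b i` is chosen by `hL`; `Dt.per_T`, `GAL.ModP.heckeTLin_eq_smul hf`, `GAL.ModP.eigenform_ne_zero hf`,
`Dt.per_injective`.  It gives `x : Fin r → k`, `x ≠ 0`, `T_ℓ x = φ (b ℓ) x = (a ℓ : k) x` (`Ideal.Quotient.eq`).  Conclude by
`descend_eigenvector`. -/
theorem exists_eigenvector_of_eigenform {n : ℕ} [NeZero n] (Dt : TorsDatum n) {p : ℕ}
    [Fact p.Prime] (f : CuspForm (Gamma0 n) 2) (hf : f.IsNormalizedEigenform)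
    (𝔪 : Ideal (integralClosure ℤ ℂ)) (h𝔪 : 𝔪.IsMaximal) (hp : (p : integralClosure ℤ ℂ) ∈ 𝔪)
    (L : Set ℕ) (a : ℕ → ℤ)
    (hL : ∀ ℓ ∈ L, ℓ.Prime ∧ ¬ ℓ ∣ n ∧ ∃ b : integralClosure ℤ ℂ, (b : ℂ) = qCoeff f ℓ ∧
      b - ((a ℓ : ℤ) : integralClosure ℤ ℂ) ∈ 𝔪) :
    ∃ y : Fin Dt.r → ZMod p, y ≠ 0 ∧
      ∀ ℓ ∈ L, ((Dt.T ℓ).map (Int.castRingHom (ZMod p))).mulVec y = (a ℓ : ZMod p) • y := by
  classical
  let _ : Field (integralClosure ℤ ℂ ⧸ 𝔪) := Ideal.Quotient.field 𝔪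
  have hφ : Function.Surjective (Ideal.Quotient.mk 𝔪) := Ideal.Quotient.mk_surjective
  have hpk : ((p : ℕ) : integralClosure ℤ ℂ ⧸ 𝔪) = 0 := by
    have h0 : Ideal.Quotient.mk 𝔪 (p : integralClosure ℤ ℂ) = 0 :=
      Ideal.Quotient.eq_zero_iff_mem.mpr hp
    rwa [map_natCast] at h0
  have hchar : CharP (integralClosure ℤ ℂ ⧸ 𝔪) p :=
    ringChar.of_eq (CharP.ringChar_of_prime_eq_zero (Fact.out : p.Prime) hpk)
  have hb : ∀ i : L, ∃ b : integralClosure ℤ ℂ, (b : ℂ) = qCoeff f i.1 ∧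
      b - ((a i.1 : ℤ) : integralClosure ℤ ℂ) ∈ 𝔪 := fun i => (hL i.1 i.2).2.2
  choose b hb1 hb2 using hb
  have hper0 : Dt.per f ≠ 0 := by
    intro h
    apply GAL.ModP.eigenform_ne_zero hf
    apply Dt.per_injective
    rw [h, map_zero]
  obtain ⟨x, hx0, hx⟩ := exists_eigenvector_of_reduction (R := integralClosure ℤ ℂ) (C := ℂ)
    (ι := L) Subtype.val_injective (Ideal.Quotient.mk 𝔪) hφ
    (fun i => (Dt.T i.1).map (Int.castRingHom (integralClosure ℤ ℂ)))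
    (by
      intro i j
      rw [← Matrix.map_mul, ← Matrix.map_mul, Dt.T_comm])
    b (Dt.per f) hper0
    (by
      intro i
      have h1 : ((Dt.T i.1).map (Int.castRingHom (integralClosure ℤ ℂ))).map
          (algebraMap (integralClosure ℤ ℂ) ℂ) = (Dt.T i.1).map (Int.castRingHom ℂ) := by
        ext u v
        simp
      rw [h1, ← Dt.per_T i.1 (hL i.1 i.2).1 (hL i.1 i.2).2.1 f,
        GAL.ModP.heckeTLin_eq_smul hf (hL i.1 i.2).1 (hL i.1 i.2).2.1, map_smul]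
      congr 1
      exact (hb1 i).symm)
  obtain ⟨y, hy0, hy⟩ := descend_eigenvector (p := p) (k := integralClosure ℤ ℂ ⧸ 𝔪) (ι := L)
    (fun i => Dt.T i.1) (fun i => a i.1) x hx0
    (by
      intro i
      have h4 : ((Dt.T i.1).map (Int.castRingHom (integralClosure ℤ ℂ))).map
          (Ideal.Quotient.mk 𝔪) = (Dt.T i.1).map (Int.castRingHom (integralClosure ℤ ℂ ⧸ 𝔪)) := by
        ext u v
        simp
      have h5 : Ideal.Quotient.mk 𝔪 (b i) = ((a i.1 : ℤ) : integralClosure ℤ ℂ ⧸ 𝔪) := by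
        rw [← map_intCast (Ideal.Quotient.mk 𝔪)]
        exact Ideal.Quotient.eq.mpr (hb2 i)
      have h6 := hx i
      rw [h4, h5] at h6
      exact h6)
  exact ⟨y, hy0, fun ℓ hℓ => hy ⟨ℓ, hℓ⟩⟩

/-- **(GLUE-in).** -/
theorem exists_eigenKV_of_modularRep (P : FreyPackage) {N : ℕ} [NeZero N] [NeZero P.p]
    (hmod : P.ModularRepOfLevel N) :
    ∃ (W : WeierstrassCurve ℤ) (S : Finset ℕ), W.IsIntegralModelOf P.freyCurve ∧
      eigenKV N P.p S W.apOfModel ≠ ⊥ := by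
  obtain ⟨f, W, 𝔪, hf, hW, h𝔪, hp, hcong⟩ := hmod
  have : Fact P.p.Prime := ⟨P.pp⟩
  have hΔ : W.Δ ≠ 0 := Lib.Ell.model_disc_ne_zero P.freyCurve (S13.frey_Δ_ne_zero P) W hW
  obtain ⟨Dt⟩ := nonempty_torsDatum' N
  refine ⟨W, insert P.p W.Δ.natAbs.primeFactors, hW, ?_⟩
  obtain ⟨y, hy0, hy⟩ := exists_eigenvector_of_eigenform Dt f hf 𝔪 h𝔪 hp
    {ℓ : ℕ | ℓ.Prime ∧ ¬ ℓ ∣ N ∧ ℓ ∉ insert P.p W.Δ.natAbs.primeFactors} W.apOfModel (by
      rintro ℓ ⟨hℓ, hℓN, hℓS⟩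
      rw [Finset.mem_insert, not_or] at hℓS
      refine ⟨hℓ, hℓN, hcong ℓ hℓ ?_ hℓN hℓS.1⟩
      intro hbad
      apply hℓS.2
      rw [Nat.mem_primeFactors]
      exact ⟨hℓ, Int.natCast_dvd.mp hbad, Int.natAbs_ne_zero.mpr hΔ⟩)
  intro hbot
  have h1 : Dt.e P.p y ∈ eigenKV N P.p (insert P.p W.Δ.natAbs.primeFactors) W.apOfModel := by
    intro ℓ _ hℓ hℓN hℓS
    rw [← Dt.e_T P.p ℓ hℓ hℓN, hy ℓ ⟨hℓ, hℓN, hℓS⟩, Int.cast_smul_eq_zsmul, map_zsmul]
  rw [hbot, AddSubgroup.mem_bot] at h1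
  exact hy0 ((Dt.e P.p).injective (by rw [h1, map_zero]))

end Fermat.Agent.MR.Glue
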