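import Fermat.Agent.MR.Glue.Defs
import Fermat.Agent.GAL.Hecke.Degree
import Fermat.Agent.Lib.Gamma0Count.Index

/-!
# MR / Glue / Lvl : the pull-back `V_p(F(N)) → V_p(F(2^k N))` is injective (`p ≥ 5`) and commutes with `T_ℓ`
-/

set_option autoImplicit false

namespace Fermat.Agent.MR.Glue

open AlgebraicCurve ModularCurve Fermat.Agent.S24 Fermat.Agent.GAL Fermat.Agent.GAL.Hecke
open Fermat.Agent.DR Fermat.Agent.DR.Gal

variable {N N' : ℕ} [NeZero N] [NeZero N'] (h : N ∣ N')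

/-- **Leaf LV1a.** the Hecke norm is compatible with the change of level.
PROOF: exactly as `DR.Gal.lvl_normAlong` (`DR/Gal/Level.lean`): `Subtype.ext`, `qExpand_injective (R := Kbar) (N := ℓ)`, `coe_lvl`, and
`GAL.NormFormula.qExpand_heckeNorm' hℓ _ hζ f` at both levels (its right-hand side only involves the `q`-expansion of `f`). -/
theorem lvl_heckeNorm {ℓ : ℕ} [NeZero ℓ] (hℓ : ℓ.Prime) (hℓN' : ¬ ℓ ∣ N') (f : FN N) :
    lvl h (heckeNorm Kbar N ℓ f) = heckeNorm Kbar N' ℓ (lvl h f) := by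
  have hℓN : ¬ ℓ ∣ N := fun h' => hℓN' (h'.trans h)
  obtain ⟨ζ, hζ⟩ : ∃ ζ : Kbar, IsPrimitiveRoot ζ ℓ :=
    HasEnoughRootsOfUnity.exists_primitiveRoot Kbar ℓ
  apply Subtype.ext
  apply qExpand_injective (R := Kbar) (N := ℓ)
  rw [coe_lvl, GAL.NormFormula.qExpand_heckeNorm' hℓ hℓN hζ f,
    GAL.NormFormula.qExpand_heckeNorm' hℓ hℓN' hζ (lvl h f), coe_lvl]

/-- **LV1.** the pull-back commutes with `T_ℓ`. -/
theorem lvlKV_heckeT {ℓ : ℕ} [NeZero ℓ] (hℓ : ℓ.Prime) (hℓN' : ¬ ℓ ∣ N') (m : ℕ)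
    (x : KV Kbar (FN N) m) :
    lvlKV h m (heckeT Kbar N ℓ m x) = heckeT Kbar N' ℓ m (lvlKV h m x) := by
  obtain ⟨u, rfl⟩ := KV.mk_surjective x
  rw [heckeT_mk (heckeNormPreserves N ℓ m), lvlKV_mk, lvlKV_mk,
    heckeT_mk (heckeNormPreserves N' ℓ m)]
  exact congrArg KV.mk (Subtype.ext (Units.ext (lvl_heckeNorm h hℓ hℓN' _)))

/-- **Leaf LV2a.** the degree of `F(N') / F(N)`.
PROOF: `GAL.Hecke.DegreeAlpha.finrank_tower (lvl h) (jF N)`, `lvl_jF h`, `GAL.Hecke.finrank_jF` at both levels; `finrankAlong` unfolds to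
`@Module.finrank F F' _ _ (algebraAlong φ).toModule` (see `GAL.Hecke.DegreeAlpha.finrank_alpha` for the same computation). -/
theorem finrankAlong_lvl_mul : dedekindPsi N * finrankAlong Kbar (lvl h) = dedekindPsi N' := by
  have h1 := GAL.DegreeAlpha.finrank_tower (lvl h) (jF N)
  rw [lvl_jF h, GAL.Hecke.finrank_jF, GAL.Hecke.finrank_jF] at h1
  exact h1

/-- **Leaf LV2b.** (induction on `k`; `Lib.Gamma0Count.dedekindPsi_prime_mul_of_dvd`, `dedekindPsi_prime_mul_of_not_dvd` with `p = 2`). -/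
theorem dedekindPsi_two_pow_mul (k n : ℕ) (hn : n ≠ 0) :
    ∃ i j : ℕ, dedekindPsi (2 ^ k * n) = 2 ^ i * 3 ^ j * dedekindPsi n := by
  induction k with
  | zero => exact ⟨0, 0, by simp⟩
  | succ k ih =>
    obtain ⟨i, j, hij⟩ := ih
    have h0 : 2 ^ k * n ≠ 0 := mul_ne_zero (pow_ne_zero _ two_ne_zero) hn
    have e : 2 ^ (k + 1) * n = 2 * (2 ^ k * n) := by ring
    by_cases h2 : 2 ∣ 2 ^ k * n
    · refine ⟨i + 1, j, ?_⟩
      rw [e, Lib.Gamma0Count.dedekindPsi_prime_mul_of_dvd Nat.prime_two h0 h2, hij]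
      ring
    · refine ⟨i, j + 1, ?_⟩
      rw [e, Lib.Gamma0Count.dedekindPsi_prime_mul_of_not_dvd Nat.prime_two h0 h2, hij]
      ring

/-- **Leaf LV2c.** `V_m` is killed by `m` (`KV.mk_surjective`, `← KV.mk_pow`, `KV.mk_eq_zero_iff`: `u ^ m` is an `m`-th power). -/
theorem KV_nsmul_self {K F : Type*} [Field K] [Field F] [Algebra K F] (m : ℕ) (x : KV K F m) :
    m • x = 0 := by
  obtain ⟨u, rfl⟩ := KV.mk_surjective x
  rw [← KV.mk_pow, KV.mk_eq_zero_iff]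
  exact ⟨u, rfl⟩

/-- **LV2.** the pull-back is injective on `V_p`, `p ≥ 5`, if `N' = 2^k N`.
PROOF: `nsmul_eq_zero_of_lvlKV`: the kernel is killed by `d = finrankAlong`, `d = 2^i 3^j` (LV2a, LV2b, `dedekindPsi_pos`), and by `p`
(LV2c); `Nat.Coprime d p`; Bezout (`Nat.Coprime` → `Int.gcd_eq_gcd_ab` or `(Nat.Coprime.gcd_eq_one)`, `AddMonoid` order: e.g.
`addOrderOf_dvd_iff_nsmul_eq_zero`, `Nat.dvd_gcd`, `addOrderOf_eq_one_iff`). -/
theorem lvlKV_injective {p : ℕ} (hp : p.Prime) (hp5 : 5 ≤ p) (hk : ∃ k : ℕ, N' = 2 ^ k * N) :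
    Function.Injective (lvlKV h p) := by
  rw [injective_iff_map_eq_zero]
  intro x hx
  have h1 := nsmul_eq_zero_of_lvlKV h p x hx
  have h2 := KV_nsmul_self p x
  obtain ⟨k, hk⟩ := hk
  obtain ⟨i, j, hij⟩ := dedekindPsi_two_pow_mul k N (NeZero.ne N)
  have h3 := finrankAlong_lvl_mul h
  have h3' : dedekindPsi N' = 2 ^ i * 3 ^ j * dedekindPsi N := by rw [hk, hij]
  rw [h3', mul_comm] at h3
  have h4 : finrankAlong Kbar (lvl h) = 2 ^ i * 3 ^ j :=
    Nat.eq_of_mul_eq_mul_right (GAL.DegreeAlpha.dedekindPsi_pos N) h3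
  have hcop : Nat.Coprime (finrankAlong Kbar (lvl h)) p := by
    rw [h4]
    apply Nat.Coprime.mul_left
    · apply Nat.Coprime.pow_left
      rw [Nat.coprime_primes Nat.prime_two hp]
      omega
    · apply Nat.Coprime.pow_left
      rw [Nat.coprime_primes Nat.prime_three hp]
      omega
  have h5 : addOrderOf x ∣ Nat.gcd (finrankAlong Kbar (lvl h)) p :=
    Nat.dvd_gcd (addOrderOf_dvd_iff_nsmul_eq_zero.2 h1) (addOrderOf_dvd_iff_nsmul_eq_zero.2 h2)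
  rw [hcop.gcd_eq_one, Nat.dvd_one] at h5
  exact AddMonoid.addOrderOf_eq_one_iff.1 h5

end Fermat.Agent.MR.Glue
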