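import Fermat.Agent.MR.Glue.Front
import Fermat.Agent.MR.Glue.Lvl
import Fermat.Prelude.Def_FreyPackage_IsConductorLevel

/-!
# MR / Glue / Wire : the copy of `E[p]` at a neat level, and the final wiring of S44

* `NewCopy.neat` : the composite `E[p] → V_p(F(M' p)) → V_p(F(M p))`, `M = 2^k M'`, with all its properties;
* `s44_of` : S44 from BLR and from the treatment of the `p`-new case (TOP).
-/

set_option autoImplicit false

namespace Fermat.Agent.MR.Glue

open AlgebraicCurve ModularCurve Fermat.Agent.S24 Fermat.Agent.GAL Fermat.Agent.DR Fermat.Agent.MR.E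
open Fermat.Agent.DR.Gal

namespace NewCopy

variable {P : FreyPackage} [NeZero P.p] {M' : ℕ} [NeZero M'] {W : WeierstrassCurve ℤ} {S : Finset ℕ}
  (C : NewCopy P M' W S) {M : ℕ} [NeZero M] (h : M' ∣ M)

/-- the copy of `E[p]` at level `M p`. -/
noncomputable def neat : Ep P →+ KV Kbar (FN (M * P.p)) P.p :=
  (lvlKV (Nat.mul_dvd_mul_right h P.p) P.p).comp C.φ

theorem neat_apply (x : Ep P) : C.neat h x = lvlKV (Nat.mul_dvd_mul_right h P.p) P.p (C.φ x) := rfl

theorem neat_injective (hk : ∃ k : ℕ, M = 2 ^ k * M') : Function.Injective (C.neat h) := by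
  obtain ⟨k, hk⟩ := hk
  exact (lvlKV_injective (Nat.mul_dvd_mul_right h P.p) P.pp P.hp5
    ⟨k, by rw [hk, mul_assoc]⟩).comp C.inj

theorem neat_galois (σ : GQ) (x : Ep P) : C.neat h (σ • x) = σ • C.neat h x := by
  rw [neat_apply, C.galois, lvlKV_galois, neat_apply]

theorem neat_hecke (x : Ep P) : C.neat h x ∈ eigenKV (M * P.p) P.p S W.apOfModel := by
  intro ℓ _ h1 h2 h3
  have h4 : ¬ ℓ ∣ M' * P.p := fun h5 => h2 (h5.trans (Nat.mul_dvd_mul_right h P.p))
  rw [neat_apply, ← lvlKV_heckeT _ h1 h2, C.hecke x ℓ h1 h4 h3, map_zsmul]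

theorem neat_w (hpM : ¬ P.p ∣ M) (x : Ep P) : wKV M P.p P.p (C.neat h x) = C.ε • C.neat h x := by
  rw [neat_apply, ← lvlKV_wKV h P.pp hpM, C.w, map_zsmul]

theorem neat_new (hpM : ¬ P.p ∣ M) (x : Ep P) : alphaKV M P.p P.p (C.neat h x) = 0 := by
  rw [neat_apply, ← lvlKV_alphaKV h P.pp hpM, C.new, map_zero]

theorem neat_new_w (hpM : ¬ P.p ∣ M) (x : Ep P) :
    alphaKV M P.p P.p (wKV M P.p P.p (C.neat h x)) = 0 := by
  rw [neat_w C h hpM, map_zsmul, neat_new C h hpM, smul_zero]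

end NewCopy

/-- **What TOP has to prove**: the `p`-new case. -/
def NewCase (P : FreyPackage) : Prop :=
  ∀ (_ : NeZero P.p) (M' : ℕ) (_ : NeZero M'), ¬ P.p ∣ M' → Squarefree M' →
    ∀ (W : WeierstrassCurve ℤ) (S : Finset ℕ), W.IsIntegralModelOf P.freyCurve →
      NewCopy P M' W S → P.ModularRepOfLevel M'

/-- **S44** from BLR and the `p`-new case. -/
theorem s44_of (P : FreyPackage) (hB1 : BLRCopy P) (hB2 : BLRNonEis P) (hTop : NewCase P) {N : ℕ}
    (hcond : P.IsConductorLevel N) (hpN : P.p ∣ N) (hmod : P.ModularRepOfLevel N) :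
    ∃ M : ℕ, M ∣ N ∧ ¬ P.p ∣ M ∧ P.ModularRepOfLevel M := by
  obtain ⟨M', rfl⟩ := hpN
  have hp0 : NeZero P.p := ⟨P.pp.ne_zero⟩
  have hM'0 : NeZero M' := ⟨by
    rintro rfl
    exact absurd hcond.pos (by simp)⟩
  have hpM' : ¬ P.p ∣ M' := by
    rintro ⟨c, rfl⟩
    exact hcond.sq_not_dvd P.pp ⟨c, by ring⟩
  have hsq : Squarefree M' := hcond.squarefree.squarefree_of_dvd (dvd_mul_left _ _)
  refine ⟨M', dvd_mul_left _ _, hpM', ?_⟩
  rw [mul_comm] at hmod
  rcases front P hB1 hB2 hpM' hmod with h | ⟨W, S, hW, ⟨C⟩⟩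
  · exact h
  · exact hTop hp0 M' hM'0 hpM' hsq W S hW C

end Fermat.Agent.MR.Glue
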